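import Fermat.Agent.ClassField.Idele.Level
import Fermat.Prelude.Def_GaloisRep_ComplexConjugation
import Fermat.Prelude.Def_GaloisRep_CompletionBridge

/-!
# Local conditions for `H¹(ℚ, V)`, `V` the two-torsion of a cubic

`V = E[2]` is realised as the functions `Fin 3 → ZMod 2` of total `0` on the three roots; the
point `e_r` attached to the root `r` is the function vanishing exactly at `r`.  A class is in the
image of `H¹(⟨e_r⟩)` exactly when the `r`-component of a representing cocycle vanishes on the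
local Galois group; this is how the local conditions are phrased.
-/

set_option autoImplicit false

noncomputable section

namespace Fermat.Agent.TwoAdic.Selmer

open Fermat.Agent.ClassField.Idele

local notation "ℚ̄" => AlgebraicClosure ℚ
local notation "Γℚ" => (AlgebraicClosure ℚ ≃ₐ[ℚ] AlgebraicClosure ℚ)

/-- The sign `(-1) ^ a`. -/
def sgn {R : Type*} [One R] [Neg R] (a : ZMod 2) : R := if a = 0 then 1 else -1

/-- The three roots of an irreducible cubic with the Galois action on them. -/
structure CubicRoots where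
  root : Fin 3 → ℚ̄
  root_injective : Function.Injective root
  perm : Γℚ →* Equiv.Perm (Fin 3)
  apply_root : ∀ (σ : Γℚ) (i : Fin 3), σ (root i) = root (perm σ i)
  transitive : ∀ i : Fin 3, ∃ σ : Γℚ, perm σ 0 = i

variable (T : CubicRoots)

/-- The action of `σ` on `V`. -/
def CubicRoots.act (σ : Γℚ) (v : Fin 3 → ZMod 2) : Fin 3 → ZMod 2 := fun i => v ((T.perm σ).symm i)

/-- A continuous one-cocycle with values in `V`. -/
structure CubicRoots.IsCocycle (x : Γℚ → Fin 3 → ZMod 2) : Prop where
  sum_eq_zero : ∀ σ, ∑ i, x σ i = 0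
  map_mul : ∀ σ τ, x (σ * τ) = x σ + T.act σ (x τ)
  cont : ∃ L : IntermediateField ℚ ℚ̄, FiniteDimensional ℚ L ∧
    ∀ σ : Γℚ, (∀ y ∈ L, σ y = y) → x σ = 0

/-- Restriction of the local Galois group at `v` to `Γℚ`. -/
abbrev toGlobal (v : Nat.Primes) (τ : LocalGal v) : Γℚ := localGaloisToGlobal (v : ℕ) τ

/-- `x` vanishes on inertia at `v`. -/
def UnramifiedAt (v : Nat.Primes) (x : Γℚ → Fin 3 → ZMod 2) : Prop :=
  ∀ τ ∈ localInertia v, x (toGlobal v τ) = 0

/-- `x` comes at `v` from the line of a root fixed by the decomposition group. -/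
def CubicRoots.LineAt (v : Nat.Primes) (r : Fin 3) (x : Γℚ → Fin 3 → ZMod 2) : Prop :=
  (∀ τ : LocalGal v, T.perm (toGlobal v τ) r = r) ∧
    ∀ τ : LocalGal v, x (toGlobal v τ) r = 0

/-- The condition at a prime of good ordinary reduction of residue characteristic `2`: `x` is,
on inertia, the Kummer class of a unit in the line of the fixed root `r`. -/
def CubicRoots.PeuAt (v : Nat.Primes) (r : Fin 3) (x : Γℚ → Fin 3 → ZMod 2) : Prop :=
  (∀ τ : LocalGal v, T.perm (toGlobal v τ) r = r) ∧
    (∀ τ ∈ localInertia v, x (toGlobal v τ) r = 0) ∧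
    ∃ (u : ℚ_[(v : ℕ)]) (t : PadicAlgCl (v : ℕ)), ‖u‖ = 1 ∧
      t ^ 2 = algebraMap ℚ_[(v : ℕ)] (PadicAlgCl (v : ℕ)) u ∧
      ∀ τ ∈ localInertia v, ∀ j : Fin 3, j ≠ r → τ t = sgn (x (toGlobal v τ) j) * t

/-- `x` is locally trivial at the real place: every component at a root fixed by complex
conjugation vanishes. -/
def CubicRoots.TrivialAtInfinity (x : Γℚ → Fin 3 → ZMod 2) : Prop :=
  ∀ i : Fin 3, T.perm complexConjugation i = i → x complexConjugation i = 0

/-- `q` is an auxiliary prime for `φ`: the decomposition group fixes the root `r`, acts through an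
unramified quotient by a transvection, `φ` is unramified at `q` and its value at that element is
outside the line of `r`. -/
structure CubicRoots.IsAuxiliary (q : Nat.Primes) (r : Fin 3) (φ : Γℚ → Fin 3 → ZMod 2) : Prop where
  odd : (q : ℕ) ≠ 2
  fixed : ∀ τ : LocalGal q, T.perm (toGlobal q τ) r = r
  inertia : ∀ τ ∈ localInertia q, T.perm (toGlobal q τ) = 1
  unramified : UnramifiedAt q φ
  exists_frob : ∃ τ : LocalGal q, T.perm (toGlobal q τ) ≠ 1 ∧ φ (toGlobal q τ) r ≠ 0

/-- The local conditions used away from the auxiliary prime. -/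
def CubicRoots.SameConditionAt (v : Nat.Primes) (x φ : Γℚ → Fin 3 → ZMod 2) : Prop :=
  (∃ r, T.LineAt v r x ∧ T.LineAt v r φ) ∨
    (∃ r, (∀ τ ∈ localInertia v, T.perm (toGlobal v τ) = 1) ∧ T.PeuAt v r x ∧ T.PeuAt v r φ) ∨
    ((v : ℕ) ≠ 2 ∧ UnramifiedAt v x ∧ UnramifiedAt v φ)

end Fermat.Agent.TwoAdic.Selmer

end
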