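import Fermat.Agent.ClassField.Idele.Unramified
import Fermat.Agent.ClassField.S55.Bridge.Dense
import Fermat.Agent.TwoAdic.Selmer.Defs
import Fermat.Agent.Density.Conj
import Mathlib.FieldTheory.Galois.Profinite

/-!
# The decomposition group of the standard place is the local Galois group

Every element of the decomposition group of `padicPlace q` comes from `Gal(ℚ̄_q/ℚ_q)`, and every
element of its inertia group from local inertia.
-/

set_option autoImplicit false

noncomputable section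

open scoped Pointwise NNReal

namespace Fermat.Agent.TwoAdic.Selmer

open Fermat.Agent.ClassField.Idele

local notation "ℚ̄" => AlgebraicClosure ℚ
local notation "Γℚ" => (AlgebraicClosure ℚ ≃ₐ[ℚ] AlgebraicClosure ℚ)

variable (q : Nat.Primes)

lemma mem_padicPlace_iff_norm {x : ℚ̄} :
    x ∈ padicPlace (q : ℕ) ↔ ‖padicEmbedding (q : ℕ) x‖ ≤ 1 :=
  mem_padicPlace_iff _

lemma norm_natCast_padicAlgCl :
    ‖((q : ℕ) : PadicAlgCl (q : ℕ))‖ = ((q : ℕ) : ℝ)⁻¹ := by
  rw [← map_natCast (algebraMap ℚ_[(q : ℕ)] (PadicAlgCl (q : ℕ))), norm_algebraMap', Padic.norm_p]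

/-- Automorphisms preserving the place preserve the absolute value. -/
lemma norm_apply_eq_of_mem_decomposition {σ : Γℚ}
    (hσ : σ ∈ (padicPlace (q : ℕ)).decompositionSubgroup ℚ) (x : ℚ̄) :
    ‖padicEmbedding (q : ℕ) (σ x)‖ = ‖padicEmbedding (q : ℕ) x‖ := by
  have hmem : ∀ g : Γℚ, g ∈ (padicPlace (q : ℕ)).decompositionSubgroup ℚ → ∀ y : ℚ̄,
      y ∈ padicPlace (q : ℕ) → g y ∈ padicPlace (q : ℕ) := fun g hg y hy => by
    have h := ValuationSubring.smul_mem_pointwise_smul g y (padicPlace (q : ℕ)) hy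
    rwa [MulAction.mem_stabilizer_iff.mp hg] at h
  -- one inequality for every element of the group suffices
  suffices key : ∀ g : Γℚ, g ∈ (padicPlace (q : ℕ)).decompositionSubgroup ℚ → ∀ y : ℚ̄,
      ‖padicEmbedding (q : ℕ) (g y)‖ ≤ ‖padicEmbedding (q : ℕ) y‖ by
    refine le_antisymm (key σ hσ x) ?_
    have h := key σ⁻¹ (inv_mem hσ) (σ x)
    rwa [show σ⁻¹ (σ x) = x from σ.symm_apply_apply x] at h
  intro g hg y
  rcases eq_or_ne y 0 with rfl | hy
  · simp
  by_contra! hlt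
  set b := ‖padicEmbedding (q : ℕ) y‖
  set a := ‖padicEmbedding (q : ℕ) (g y)‖
  have hb : 0 < b := norm_pos_iff.mpr ((map_ne_zero _).mpr hy)
  have hq1 : (1 : ℝ) < (q : ℕ) := Nat.one_lt_cast.2 q.2.one_lt
  obtain ⟨k, hk⟩ := pow_unbounded_of_one_lt ((q : ℕ) : ℝ) ((one_lt_div hb).mpr hlt)
  obtain ⟨m, hm1, hm2⟩ := exists_mem_Ioc_zpow (pow_pos hb k) hq1
  set z : ℚ̄ := y ^ k * ((q : ℕ) : ℚ̄) ^ (m + 1)
  have hz : ∀ w : ℚ̄, ‖padicEmbedding (q : ℕ) (w ^ k * ((q : ℕ) : ℚ̄) ^ (m + 1))‖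
      = ‖padicEmbedding (q : ℕ) w‖ ^ k * (((q : ℕ) : ℝ) ^ (m + 1))⁻¹ := fun w => by
    rw [map_mul, map_pow, map_zpow₀, map_natCast, norm_mul, norm_pow, norm_zpow,
      norm_natCast_padicAlgCl, inv_zpow]
  have hpos : (0 : ℝ) < ((q : ℕ) : ℝ) ^ (m + 1) := zpow_pos (by linarith) _
  have hzA : z ∈ padicPlace (q : ℕ) := by
    rw [mem_padicPlace_iff_norm, hz]
    exact (mul_inv_le_iff₀ hpos).mpr (by simpa using hm2)
  have hgz := hmem g hg z hzA
  rw [mem_padicPlace_iff_norm, map_mul, map_pow, map_zpow₀ g, map_natCast g, hz,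
    mul_inv_le_iff₀ hpos, one_mul] at hgz
  rw [div_pow, lt_div_iff₀ (pow_pos hb k)] at hk
  rw [zpow_add_one₀ (by positivity : ((q : ℕ) : ℝ) ≠ 0)] at hgz
  have h2 : ((q : ℕ) : ℝ) ^ m * (q : ℕ) < (q : ℕ) * b ^ k := by
    rw [mul_comm]; exact mul_lt_mul_of_pos_left hm1 (by linarith)
  linarith

/-- Every element of the decomposition group is local. -/
theorem exists_toGlobal_eq {σ : Γℚ} (hσ : σ ∈ (padicPlace (q : ℕ)).decompositionSubgroup ℚ) :
    ∃ τ : LocalGal q, toGlobal q τ = σ := by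
  classical
  set ι : Emb q := padicEmbedding (q : ℕ)
  let Z : ℚ̄ → Set (LocalGal q) := fun x => {τ | τ (ι x) = ι (σ x)}
  have hclosed : ∀ x, IsClosed (Z x) := by
    intro x
    by_cases h : ∃ τ₀, τ₀ ∈ Z x
    · obtain ⟨τ₀, hτ₀⟩ := h
      have heq : Z x = τ₀ • ((MulAction.stabilizer (LocalGal q) (ι x) : Subgroup _) :
          Set (LocalGal q)) := by
        ext τ
        rw [mem_leftCoset_iff, SetLike.mem_coe, MulAction.mem_stabilizer_iff]
        constructor
        · intro hτ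
          show τ₀⁻¹ (τ (ι x)) = ι x
          rw [show τ (ι x) = τ₀ (ι x) from hτ.trans hτ₀.symm]
          exact τ₀.symm_apply_apply (ι x)
        · intro hτ
          have h1 : τ (ι x) = τ₀ (ι x) := by
            have := congrArg τ₀ hτ
            rwa [AlgEquiv.smul_def, AlgEquiv.mul_apply, show τ₀ (τ₀⁻¹ (τ (ι x))) = τ (ι x) from
              τ₀.apply_symm_apply _] at this
          exact h1.trans hτ₀
      rw [heq]
      exact (Subgroup.isClosed_of_isOpen _
        (stabilizer_isOpen_of_isIntegral (ι x))).smul τ₀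
    · rw [show Z x = ∅ from Set.eq_empty_iff_forall_notMem.2 fun τ hτ => h ⟨τ, hτ⟩]
      exact isClosed_empty
  have hfin : ∀ s : Finset ℚ̄, (⋂ x ∈ s, Z x).Nonempty := by
    intro s
    have : FiniteDimensional ℚ (IntermediateField.adjoin ℚ (s : Set ℚ̄)) :=
      IntermediateField.finiteDimensional_adjoin fun x _ =>
        ((AlgebraicClosure.isAlgebraic ℚ).isAlgebraic x).isIntegral
    obtain ⟨τ, hτ⟩ := exists_localComp_eqOn (ℓ := q) (ι := ι) (ι' := ι.comp σ.toAlgHom)
      (K := IntermediateField.adjoin ℚ (s : Set ℚ̄))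
      fun x _ => (norm_apply_eq_of_mem_decomposition q hσ x).symm
    exact ⟨τ, Set.mem_iInter₂.2 fun x hx => hτ x (IntermediateField.subset_adjoin ℚ _ hx)⟩
  obtain ⟨τ, hτ⟩ := CompactSpace.iInter_nonempty hclosed hfin
  refine ⟨τ, AlgEquiv.ext fun x => ι.toRingHom.injective ?_⟩
  exact (padicEmbedding_localGaloisToGlobal (q : ℕ) τ x).trans (Set.mem_iInter.1 hτ x)

/-- Every element of the inertia group comes from local inertia. -/
theorem exists_localInertia_eq {σ : Γℚ} (hσ : σ ∈ (padicPlace (q : ℕ)).inertiaSubgroupIn ℚ) :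
    ∃ τ ∈ localInertia q, toGlobal q τ = σ := by
  rw [Density.mem_inertiaSubgroupIn_iff] at hσ
  obtain ⟨τ, hτ⟩ := exists_toGlobal_eq q hσ.1
  refine ⟨τ, fun x hx => ?_, hτ⟩
  obtain ⟨a, ha⟩ := ClassField.S55.exists_norm_sub_emb0_lt q x one_pos
  change ‖x - padicEmbedding (q : ℕ) a‖ < 1 at ha
  have haA : a ∈ padicPlace (q : ℕ) := by
    rw [mem_padicPlace_iff_norm]
    have h := IsUltrametricDist.norm_add_le_max x (-(x - padicEmbedding (q : ℕ) a))
    rw [norm_neg, ← sub_eq_add_neg, sub_sub_cancel] at h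
    exact h.trans (max_le hx ha.le)
  have hn : ‖padicEmbedding (q : ℕ) (σ a - a)‖ < 1 := by
    have h := hσ.2 a haA
    change σ a - a ∈ (placeOfEmb (padicEmbedding (q : ℕ) : Emb q)).nonunits at h
    exact mem_nonunits_placeOfEmb.mp h
  rw [map_sub, ← hτ, padicEmbedding_localGaloisToGlobal] at hn
  have hd : ‖τ (x - padicEmbedding (q : ℕ) a)‖ < 1 := by
    rw [show ‖τ (x - padicEmbedding (q : ℕ) a)‖ = ‖x - padicEmbedding (q : ℕ) a‖ from
      congrArg NNReal.toReal (nnnorm_padicAlgCl_algEquiv (q : ℕ) τ _)]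
    exact ha
  calc ‖τ x - x‖ = ‖(τ (x - padicEmbedding (q : ℕ) a)) +
        ((τ (padicEmbedding (q : ℕ) a) - padicEmbedding (q : ℕ) a) +
          -(x - padicEmbedding (q : ℕ) a))‖ := by rw [map_sub]; congr 1; abel
    _ < 1 := (IsUltrametricDist.norm_add_le_max _ _).trans_lt (max_lt hd
          ((IsUltrametricDist.norm_add_le_max _ _).trans_lt (max_lt hn (by rwa [norm_neg]))))

/-- Local inertia restricts into the inertia group of the standard place. -/
theorem toGlobal_mem_inertia {τ : LocalGal q} (hτ : τ ∈ localInertia q) :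
    toGlobal q τ ∈ (padicPlace (q : ℕ)).inertiaSubgroupIn ℚ :=
  exists_mem_inertiaSubgroupIn (padicEmbedding (q : ℕ) : Emb q) hτ _
    (AlgHom.ext fun x => padicEmbedding_localGaloisToGlobal (q : ℕ) τ x)

theorem liesOverPrime_padicPlace : (padicPlace (q : ℕ)).LiesOverPrime (q : ℕ) :=
  liesOverPrime_placeOfEmb (padicEmbedding (q : ℕ) : Emb q)

end Fermat.Agent.TwoAdic.Selmer
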