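import Fermat.Agent.TwoAdic.Selmer.Defs
import Fermat.Agent.MordellWeil.QuadraticSubgroups

/-!
# Finiteness of the cocycles unramified outside a finite set

On the subgroup fixing the three roots a cocycle is a triple of quadratic characters unramified
outside `S`, of which there are finitely many; on the rest it is determined by the values at
finitely many coset representatives.
-/

set_option autoImplicit false

noncomputable section

namespace Fermat.Agent.TwoAdic.Selmer

local notation "ℚ̄" => AlgebraicClosure ℚ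
local notation "Γℚ" => (AlgebraicClosure ℚ ≃ₐ[ℚ] AlgebraicClosure ℚ)

local instance isAlgebraicQbar_selmerFiniteness : Algebra.IsAlgebraic ℚ ℚ̄ := AlgebraicClosure.isAlgebraic ℚ

variable (T : CubicRoots)

/-- The field generated by the roots. -/
def CubicRoots.rootField : IntermediateField ℚ ℚ̄ :=
  IntermediateField.adjoin ℚ (Set.range T.root)

instance CubicRoots.finiteDimensional_rootField : FiniteDimensional ℚ T.rootField :=
  IntermediateField.finiteDimensional_adjoin fun x _ => (Algebra.IsAlgebraic.isAlgebraic x).isIntegral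

theorem CubicRoots.perm_eq_one_of_mem_fixingSubgroup {σ : Γℚ}
    (hσ : σ ∈ T.rootField.fixingSubgroup) : T.perm σ = 1 := by
  refine Equiv.ext fun i => T.root_injective ?_
  rw [← T.apply_root]
  exact hσ ⟨T.root i, IntermediateField.subset_adjoin ℚ _ ⟨i, rfl⟩⟩

theorem CubicRoots.IsCocycle.map_mul_of_mem {x : Γℚ → Fin 3 → ZMod 2} (hx : T.IsCocycle x) {σ : Γℚ}
    (hσ : σ ∈ T.rootField.fixingSubgroup) (τ : Γℚ) : x (σ * τ) = x σ + x τ := by
  rw [hx.map_mul]
  congr 1
  funext i
  simp only [CubicRoots.act, T.perm_eq_one_of_mem_fixingSubgroup hσ]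
  rfl

/-- A component of a cocycle on the subgroup fixing the roots, as a quadratic subgroup. -/
def CubicRoots.IsCocycle.componentKer {x : Γℚ → Fin 3 → ZMod 2} (hx : T.IsCocycle x) (i : Fin 3) :
    Subgroup Γℚ where
  carrier := {σ | σ ∈ T.rootField.fixingSubgroup ∧ x σ i = 0}
  one_mem' := ⟨Subgroup.one_mem _, by
    have h := hx.map_mul_of_mem T (Subgroup.one_mem _) 1
    rw [one_mul, left_eq_add] at h
    rw [h]; rfl⟩
  mul_mem' := fun {σ τ} hσ hτ => ⟨Subgroup.mul_mem _ hσ.1 hτ.1, by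
    rw [hx.map_mul_of_mem T hσ.1, Pi.add_apply, hσ.2, hτ.2, add_zero]⟩
  inv_mem' := fun {σ} hσ => ⟨Subgroup.inv_mem _ hσ.1, by
    have h := hx.map_mul_of_mem T hσ.1 σ⁻¹
    have h1 := hx.map_mul_of_mem T (Subgroup.one_mem _) 1
    rw [one_mul, left_eq_add] at h1
    rw [mul_inv_cancel, h1] at h
    have h2 := congrFun h i
    rw [Pi.add_apply, hσ.2, zero_add] at h2
    exact h2.symm⟩

theorem CubicRoots.IsCocycle.mem_componentKer {x : Γℚ → Fin 3 → ZMod 2} (hx : T.IsCocycle x)
    (i : Fin 3) (σ : Γℚ) :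
    σ ∈ hx.componentKer T i ↔ σ ∈ T.rootField.fixingSubgroup ∧ x σ i = 0 := Iff.rfl

/-- Cocycles unramified outside a finite set form a finite set. -/
theorem CubicRoots.finite_cocycles_unramified (S : Finset Nat.Primes) :
    {x : Γℚ → Fin 3 → ZMod 2 | T.IsCocycle x ∧
      ∀ v : Nat.Primes, v ∉ S → ∀ A : ValuationSubring ℚ̄, A.LiesOverPrime (v : ℕ) →
        ∀ σ ∈ A.inertiaSubgroupIn ℚ, x σ = 0}.Finite := by
  classical
  set K := T.rootField
  set H := K.fixingSubgroup
  set m : ℕ := ∏ v ∈ S, (v : ℕ)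
  have hm : m ≠ 0 := Finset.prod_ne_zero_iff.2 fun v _ => v.2.ne_zero
  set X := {x : Γℚ → Fin 3 → ZMod 2 | T.IsCocycle x ∧
      ∀ v : Nat.Primes, v ∉ S → ∀ A : ValuationSubring ℚ̄, A.LiesOverPrime (v : ℕ) →
        ∀ σ ∈ A.inertiaSubgroupIn ℚ, x σ = 0}
  have hker : ∀ (x : X) (i : Fin 3),
      MordellWeil.IsQuadraticUnramified K m (x.2.1.componentKer T i) := by
    rintro ⟨x, hx, hur⟩ i
    refine ⟨fun σ hσ => hσ.1, ?_, fun σ hσ τ hτ hσn hτn => ⟨Subgroup.mul_mem _ hσ hτ, ?_⟩, ?_⟩
    · obtain ⟨L, hL, hL0⟩ := hx.cont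
      refine Subgroup.isOpen_mono (H₁ := H ⊓ L.fixingSubgroup) (fun σ hσ => ⟨hσ.1, ?_⟩)
        ((IntermediateField.fixingSubgroup_isOpen K).inter
          (IntermediateField.fixingSubgroup_isOpen L))
      show x σ i = 0
      rw [hL0 σ fun y hy => hσ.2 ⟨y, hy⟩]
      rfl
    · have h1 : x σ i ≠ 0 := fun h => hσn ⟨hσ, h⟩
      have h2 : x τ i ≠ 0 := fun h => hτn ⟨hτ, h⟩
      show x (σ * τ) i = 0
      rw [hx.map_mul_of_mem T hσ, Pi.add_apply]
      revert h1 h2
      generalize x σ i = a; generalize x τ i = b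
      revert a b; decide
    · intro ℓ hℓ hℓm A hA σ hσ hσH
      refine ⟨hσH, ?_⟩
      have hv : (⟨ℓ, hℓ⟩ : Nat.Primes) ∉ S := fun h =>
        hℓm (Finset.dvd_prod_of_mem (fun v : Nat.Primes => (v : ℕ)) h)
      show x σ i = 0
      rw [hur ⟨ℓ, hℓ⟩ hv A hA σ hσ]
      rfl
  have : Finite (Γℚ ⧸ H) :=
    Subgroup.quotient_finite_of_isOpen H (IntermediateField.fixingSubgroup_isOpen K)
  have := (MordellWeil.finite_isQuadraticUnramified K hm).to_subtype
  let data : X → (Γℚ ⧸ H → Fin 3 → ZMod 2) ×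
      (Fin 3 → {N | MordellWeil.IsQuadraticUnramified K m N}) :=
    fun x => (fun q => x.1 q.out, fun i => ⟨x.2.1.componentKer T i, hker x i⟩)
  have hinj : Function.Injective data := by
    rintro ⟨x, hx, hxu⟩ ⟨y, hy, hyu⟩ h
    obtain ⟨hq, hφ⟩ := Prod.mk.inj h
    have hH : ∀ σ ∈ H, x σ = y σ := fun σ hσ => funext fun i => by
      have h1 : hx.componentKer T i = hy.componentKer T i := congrArg Subtype.val (congrFun hφ i)
      have hiff : x σ i = 0 ↔ y σ i = 0 := by
        have h2 := congrArg (fun N : Subgroup Γℚ => σ ∈ N) h1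
        simpa [hx.mem_componentKer T, hy.mem_componentKer T, show σ ∈ T.rootField.fixingSubgroup from hσ]
          using h2
      revert hiff
      generalize x σ i = a; generalize y σ i = b
      revert a b; decide
    refine Subtype.ext (funext fun σ => ?_)
    obtain ⟨h', hh'⟩ := QuotientGroup.mk_out_eq_mul H σ
    have hq' : x (QuotientGroup.mk (s := H) σ).out = y (QuotientGroup.mk (s := H) σ).out :=
      congrFun hq _
    rw [hh', hx.map_mul, hy.map_mul, hH _ h'.2] at hq'
    exact add_right_cancel hq'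
  exact Set.finite_coe_iff.1 (Finite.of_injective data hinj)

end Fermat.Agent.TwoAdic.Selmer

end
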