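import Fermat.Agent.TwoAdic.Selmer.Killing
import Fermat.Agent.TwoAdic.Selmer.Finiteness
import Fermat.Agent.RT.Tame

/-!
# One more prime with a line

Adding a line at an odd prime where inertia fixes the roots raises the dimension of the Selmer
group by at most one, inertia having cyclic image in a `2`-group.  Also: a first Ramakrishna prime.
-/

set_option autoImplicit false

noncomputable section

open Matrix hiding one_zpow zpow_add zpow_mul

namespace Fermat.Agent.TwoAdic.Selmer

open Fermat.Agent.ClassField.Idele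

local notation "ℚ̄" => AlgebraicClosure ℚ
local notation "Γℚ" => (AlgebraicClosure ℚ ≃ₐ[ℚ] AlgebraicClosure ℚ)

variable {T : CubicRoots}

/-- A non-trivial permutation of three roots fixes at most one of them. -/
lemma fixed_root_unique : ∀ s : Equiv.Perm (Fin 3), ∀ r r' : Fin 3,
    s ≠ 1 → s r = r → s r' = r' → r = r' := by decide

lemma eq_of_line_aux : ∀ (r : Fin 3) (a b c d : ZMod 2), ![a, b, a + b] r = 0 →
    ![c, d, c + d] r = 0 → ¬(a = 0 ∧ b = 0) → ¬(c = 0 ∧ d = 0) → a = c ∧ b = d := by decide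

/-- The line of a root has one non-zero element. -/
lemma eq_of_line {r : Fin 3} {u v : Fin 3 → ZMod 2} (hu : ∑ i, u i = 0) (hv : ∑ i, v i = 0)
    (hur : u r = 0) (hvr : v r = 0) (hu0 : u ≠ 0) (hv0 : v ≠ 0) : u = v := by
  have eu : u = toSum (ofSum u) := (toSum_ofSum hu).symm
  have ev : v = toSum (ofSum v) := (toSum_ofSum hv).symm
  rw [eu] at hur hu0 ⊢
  rw [ev] at hvr hv0 ⊢
  have hne : ∀ z : V2, toSum z ≠ 0 → ¬(z 1 = 0 ∧ z 0 = 0) := fun z h hz => h (by
    rw [show z = 0 from funext fun i => by fin_cases i; exacts [hz.2, hz.1], map_zero])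
  have key : ∀ z : V2, toSum z = ![z 1, z 0, z 1 + z 0] := fun z => by
    show ![z 1, z 0, z 0 + z 1] = _
    rw [add_comm (z 0)]
  rw [key] at hur hvr
  obtain ⟨h1, h2⟩ := eq_of_line_aux r _ _ _ _ hur hvr (hne _ hu0) (hne _ hv0)
  rw [key, key, h1, h2]

/-- The affine action attached to a cocycle. -/
def affPerm {x : Γℚ → Fin 3 → ZMod 2} (hx : T.IsCocycle x) :
    Γℚ →* Equiv.Perm (Fin 3 → ZMod 2) :=
  MonoidHom.mk'
    (fun g =>
      { toFun := fun v => T.act g v + x g
        invFun := fun v => T.act g⁻¹ (v - x g)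
        left_inv := fun v => by
          show T.act g⁻¹ (T.act g v + x g - x g) = v
          rw [add_sub_cancel_right, ← act_mul, inv_mul_cancel, act_one]
        right_inv := fun v => by
          show T.act g (T.act g⁻¹ (v - x g)) + x g = v
          rw [← act_mul, mul_inv_cancel, act_one, sub_add_cancel] })
    fun g h => Equiv.ext fun v => by
      show T.act (g * h) v + x (g * h) = T.act g (T.act h v + x h) + x g
      rw [act_mul, hx.map_mul, act_add]
      abel

lemma affPerm_apply {x : Γℚ → Fin 3 → ZMod 2} (hx : T.IsCocycle x) (g : Γℚ)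
    (v : Fin 3 → ZMod 2) : affPerm hx g v = T.act g v + x g := rfl

lemma affPerm_zero {x : Γℚ → Fin 3 → ZMod 2} (hx : T.IsCocycle x) (g : Γℚ) :
    affPerm hx g 0 = x g := by
  rw [affPerm_apply, show T.act g (0 : Fin 3 → ZMod 2) = 0 from rfl, zero_add]

lemma affPerm_sq {x : Γℚ → Fin 3 → ZMod 2} (hx : T.IsCocycle x) {g : Γℚ} (hg : T.perm g = 1) :
    affPerm hx g * affPerm hx g = 1 := Equiv.ext fun v => by
  show affPerm hx g (affPerm hx g v) = v
  have hid : ∀ w, T.act g w = w := fun w => by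
    funext i; simp only [CubicRoots.act, hg]; rfl
  rw [affPerm_apply, affPerm_apply, hid, hid]
  funext i
  simp only [Pi.add_apply]
  rw [add_assoc, ← two_mul, show (2 : ZMod 2) = 0 from rfl, zero_mul, add_zero]

lemma affPerm_fixed {x : Γℚ → Fin 3 → ZMod 2} (hx : T.IsCocycle x) :
    ∃ L : IntermediateField ℚ ℚ̄, FiniteDimensional ℚ L ∧
      ∀ σ : Γℚ, (∀ z ∈ L, σ z = z) → affPerm hx σ = 1 := by
  obtain ⟨L, hL, hxL⟩ := hx.cont
  refine ⟨L ⊔ T.rootField, inferInstance, fun σ hσ => Equiv.ext fun v => ?_⟩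
  rw [affPerm_apply, hxL σ fun z hz => hσ z (SetLike.le_def.mp le_sup_left hz), add_zero]
  funext i
  simp [CubicRoots.act, T.perm_eq_one_of_mem_fixingSubgroup
    fun z => hσ z.1 (SetLike.le_def.mp le_sup_right z.2), Equiv.Perm.one_def]

/-- Two cocycles in the same line at an odd prime where inertia fixes the roots: both ramified
gives an unramified sum. -/
lemma unramifiedAt_add {w : Nat.Primes} (hw : (w : ℕ) ≠ 2) {r : Fin 3}
    (hperm : ∀ τ ∈ localInertia w, T.perm (toGlobal w τ) = 1)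
    {x y : Γℚ → Fin 3 → ZMod 2} (hx : T.IsCocycle x) (hy : T.IsCocycle y)
    (hxr : ∀ τ : LocalGal w, x (toGlobal w τ) r = 0)
    (hyr : ∀ τ : LocalGal w, y (toGlobal w τ) r = 0)
    (hxn : ¬ UnramifiedAt w x) (hyn : ¬ UnramifiedAt w y) : UnramifiedAt w (x + y) := by
  obtain ⟨L₁, hL₁, h₁⟩ := affPerm_fixed hx
  obtain ⟨L₂, hL₂, h₂⟩ := affPerm_fixed hy
  set f := (affPerm hx).prod (affPerm hy)
  have hfin : ∃ L : IntermediateField ℚ ℚ̄, FiniteDimensional ℚ L ∧
      ∀ σ : Γℚ, (∀ z ∈ L, σ z = z) → f σ = 1 :=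
    ⟨L₁ ⊔ L₂, inferInstance, fun σ hσ => Prod.ext
      (h₁ σ fun z hz => hσ z (SetLike.le_def.mp le_sup_left hz))
      (h₂ σ fun z hz => hσ z (SetLike.le_def.mp le_sup_right hz))⟩
  have hsq : ∀ τ ∈ (padicPlace (w : ℕ)).inertiaSubgroupIn ℚ, f τ * f τ = 1 := by
    intro τ hτ
    obtain ⟨t, ht, rfl⟩ := exists_localInertia_eq w hτ
    exact Prod.ext (affPerm_sq hx (hperm t ht)) (affPerm_sq hy (hperm t ht))
  have hcyc := RT.isCyclic_map_inertiaSubgroupIn f hfin Nat.prime_two w.2 (Ne.symm hw)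
    (liesOverPrime_padicPlace w) fun τ hτ => ⟨1, by rw [pow_one, pow_two, hsq τ hτ]⟩
  obtain ⟨g, hg⟩ := hcyc.exists_generator
  obtain ⟨s, hs, hsg⟩ := g.2
  have key : ∀ τ ∈ localInertia w, f (toGlobal w τ) = 1 ∨ f (toGlobal w τ) = f s := by
    intro τ hτ
    obtain ⟨k, hk⟩ := Subgroup.mem_zpowers_iff.1
      (hg ⟨_, toGlobal w τ, toGlobal_mem_inertia w hτ, rfl⟩)
    have hk' : (g : _) ^ k = f (toGlobal w τ) := by
      rw [← SubgroupClass.coe_zpow, hk]
    rw [← hk', ← hsg]
    have h2 : f s ^ (2 : ℤ) = 1 := by rw [zpow_two, hsq s hs]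
    rcases Int.even_or_odd k with ⟨m, rfl⟩ | ⟨m, rfl⟩
    · left; rw [← two_mul, _root_.zpow_mul, h2, one_zpow]
    · right; rw [_root_.zpow_add, _root_.zpow_mul, h2, one_zpow, one_mul, zpow_one]
  have hval : ∀ (z : Γℚ → Fin 3 → ZMod 2) (hz : T.IsCocycle z) (p : Γℚ), affPerm hz p 0 = z p :=
    fun z hz p => affPerm_zero hz p
  have hone : affPerm hx 1 = 1 ∧ affPerm hy 1 = 1 := ⟨map_one _, map_one _⟩
  have key' : ∀ τ ∈ localInertia w, (x (toGlobal w τ) = 0 ∧ y (toGlobal w τ) = 0) ∨
      (x (toGlobal w τ) = x s ∧ y (toGlobal w τ) = y s) := by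
    intro τ hτ
    rcases key τ hτ with h | h
    · left
      rw [← hval x hx, ← hval y hy, show affPerm hx (toGlobal w τ) = 1 from congrArg Prod.fst h,
        show affPerm hy (toGlobal w τ) = 1 from congrArg Prod.snd h]
      exact ⟨rfl, rfl⟩
    · right
      rw [← hval x hx, ← hval x hx s, ← hval y hy, ← hval y hy s,
        show affPerm hx (toGlobal w τ) = affPerm hx s from congrArg Prod.fst h,
        show affPerm hy (toGlobal w τ) = affPerm hy s from congrArg Prod.snd h]
      exact ⟨rfl, rfl⟩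
  obtain ⟨s', hs', hs'eq⟩ := exists_localInertia_eq w hs
  have hxs : x s ≠ 0 := fun h => hxn fun τ hτ => by
    rcases key' τ hτ with ⟨e, -⟩ | ⟨e, -⟩
    · exact e
    · exact e.trans h
  have hys : y s ≠ 0 := fun h => hyn fun τ hτ => by
    rcases key' τ hτ with ⟨-, e⟩ | ⟨-, e⟩
    · exact e
    · exact e.trans h
  have hxy : x s = y s := by
    rw [← hs'eq] at hxs hys ⊢
    exact eq_of_line (hx.sum_eq_zero _) (hy.sum_eq_zero _) (hxr s') (hyr s') hxs hys
  intro τ hτ
  rcases key' τ hτ with ⟨e1, e2⟩ | ⟨e1, e2⟩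
  · rw [Pi.add_apply, e1, e2, add_zero]
  · rw [Pi.add_apply, e1, e2, hxy]
    funext i
    rw [Pi.add_apply, ← two_mul, show (2 : ZMod 2) = 0 from rfl, zero_mul]
    rfl

variable (D : SelData T)

open Classical in
/-- One more line. -/
def SelData.insertLine (w : Nat.Primes) (r : Fin 3)
    (hr : ∀ τ : LocalGal w, T.perm (toGlobal w τ) r = r) : SelData T where
  lineSet := insert w D.lineSet
  peuSet := D.peuSet
  root v := if v = w then r else D.root v
  root_fixed v hv := by
    split_ifs with h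
    · subst h; exact hr
    · refine D.root_fixed v ?_
      simp only [Finset.mem_union, Finset.mem_insert] at hv ⊢
      tauto
  peu_inertia := D.peu_inertia
  two_mem v hv := Finset.union_subset_union (Finset.subset_insert _ _) subset_rfl (D.two_mem v hv)

/-- One more line raises the dimension by at most one. -/
theorem SelData.bound_insertLine_le {w : Nat.Primes} {r : Fin 3}
    (hr : ∀ τ : LocalGal w, T.perm (toGlobal w τ) r = r) (hw : w ∉ D.lineSet ∪ D.peuSet)
    (hperm : ∀ τ ∈ localInertia w, T.perm (toGlobal w τ) = 1) :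
    (D.insertLine w r hr).bound ≤ D.bound + 1 := by
  classical
  set D' := D.insertLine w r hr
  have hodd : (w : ℕ) ≠ 2 := fun h => hw (D.two_mem w h)
  have hfd := D.finiteDimensional_sel_empty
  have hfd' := D'.finiteDimensional_sel_empty
  have hline : ∀ x ∈ D'.sel ∅, ∀ τ : LocalGal w, x (toGlobal w τ) r = 0 := fun x hx τ => by
    have h := (hx.line w (Finset.mem_insert_self _ _)).2 τ
    simpa [D', SelData.insertLine] using h
  have hback : ∀ x ∈ D'.sel ∅, UnramifiedAt w x → x ∈ D.sel ∅ := fun x hx hu => {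
    cocycle := hx.cocycle
    infinity := hx.infinity
    line := fun v hv => by
      have hvw : v ≠ w := fun h => hw (Finset.mem_union_left _ (h ▸ hv))
      simpa [D', SelData.insertLine, hvw] using hx.line v (Finset.mem_insert_of_mem hv)
    peu := fun v hv hv' => by
      have hvw : v ≠ w := fun h => hw (Finset.mem_union_right _ (h ▸ hv))
      simpa [D', SelData.insertLine, hvw] using hx.peu v hv (by simp [D', SelData.insertLine, hvw, hv'])
    aux := fun v hv => absurd hv (Finset.notMem_empty v)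
    unramified := fun v hl hp _ => by
      by_cases hvw : v = w
      · subst hvw; exact eq_zero_of_unramifiedAt hx.cocycle hperm hu
      · exact hx.unramified v (by simp [D', SelData.insertLine, hvw, hl]) hp (Finset.notMem_empty v) }
  by_cases hall : ∀ x ∈ D'.sel ∅, UnramifiedAt w x
  · exact (Submodule.finrank_mono fun x hx => hback x hx (hall x hx)).trans (Nat.le_succ _)
  simp only [not_forall] at hall
  obtain ⟨y, hy, hyn⟩ := hall
  have hle : D'.sel ∅ ≤ D.sel ∅ ⊔ Submodule.span (ZMod 2) {y} := by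
    intro x hx
    by_cases hu : UnramifiedAt w x
    · exact Submodule.mem_sup_left (hback x hx hu)
    · have hxy := hback _ (Submodule.add_mem _ hx hy)
        (unramifiedAt_add hodd hperm hx.cocycle hy.cocycle (hline x hx) (hline y hy) hu hyn)
      simpa using Submodule.add_mem_sup hxy
        (Submodule.neg_mem _ (Submodule.mem_span_singleton_self y))
  refine (Submodule.finrank_mono hle).trans
    ((Submodule.finrank_add_le_finrank_add_finrank _ _).trans (Nat.add_le_add_left ?_ _))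
  exact (finrank_span_le_card ({y} : Set (Γℚ → Fin 3 → ZMod 2))).trans (by simp)

/-- A Ramakrishna prime outside a given finite set. -/
theorem exists_ramakrishna {n : ℕ} {hn : n ≠ 0} {ρ : Γℚ →* GL (Fin 2) (ZMod (2 ^ n))}
    (hρ : ∃ L : IntermediateField ℚ ℚ̄, FiniteDimensional ℚ L ∧
      ∀ σ : Γℚ, (∀ x ∈ L, σ x = x) → ρ σ = 1)
    {c : Γℚ} (hc : ρ c * ρ c = 1) (hc1 : redMat hn ρ c ≠ 1) (S : Finset ℕ) :
    ∃ q, q ∉ S ∧ IsRamakrishna ρ c q := by
  obtain ⟨q, hq, hqS, A, σ, hA, hσ, hI, a, b, ha, hb⟩ :=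
    Density.exists_isFrobeniusAt_map_pow ρ hρ c S
  have hc2 : ρ c ^ 2 = 1 := by rw [sq, hc]
  obtain ⟨m, rfl⟩ : Odd a := by
    by_contra h
    obtain ⟨m, rfl⟩ := Nat.not_odd_iff_even.1 h
    have hσ1 : ρ σ = 1 := by rw [ha, ← two_mul, pow_mul, hc2, one_pow]
    apply hc1
    rw [redMat, hb, hσ1, one_pow, map_one, Units.val_one]
  have hσc : ρ σ = ρ c := by rw [ha, pow_succ, pow_mul, hc2, one_pow, one_mul]
  refine ⟨q, hqS, hq, fun B hB => ⟨fun τ hτ => ?_, fun σ' hσ' => ?_⟩⟩
  · obtain ⟨e, rfl⟩ := Density.exists_smul_eq hq hA hB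
    have h := hI _ (Density.conj_inv_mem_inertiaSubgroupIn hτ)
    rw [show τ = e * (e⁻¹ * τ * e) * e⁻¹ by group, map_mul, map_mul, h, mul_one, ← map_mul,
      mul_inv_cancel, map_one]
  · obtain ⟨⟨e, he⟩, -⟩ := Density.exists_conj_of_isFrobeniusAt ρ hq hA hσ hI hB hσ'
    exact ⟨e, by rw [he, map_mul, map_mul, hσc, ← map_mul, ← map_mul]⟩

end Fermat.Agent.TwoAdic.Selmer
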