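import Fermat.Agent.TwoAdic.Selmer.Defs
import Mathlib.FieldTheory.Galois.Infinite
import Mathlib.LinearAlgebra.LinearIndependent.Defs
import Mathlib.FieldTheory.Fixed

/-!
# Kummer theory for the cocycles of a cubic

A cocycle with values in the sum-zero functions on the roots is given by square roots `s i`, one
for each root, permuted up to the signs of the cocycle, with rational product.
-/

set_option autoImplicit false

noncomputable section

namespace Fermat.Agent.TwoAdic.Selmer

local notation "ℚ̄" => AlgebraicClosure ℚ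
local notation "Γℚ" => (AlgebraicClosure ℚ ≃ₐ[ℚ] AlgebraicClosure ℚ)

local instance isAlgebraicQbar_selmerKummer : Algebra.IsAlgebraic ℚ ℚ̄ := AlgebraicClosure.isAlgebraic ℚ

local instance isAlgClosureQbar_selmerKummer : IsAlgClosure ℚ ℚ̄ := ⟨inferInstance, inferInstance⟩

local instance isGaloisQbar_selmerKummer : IsGalois ℚ ℚ̄ := IsAlgClosure.isGalois ℚ ℚ̄

lemma sgn_ne_zero (a : ZMod 2) : (sgn a : ℚ̄) ≠ 0 := by
  unfold sgn
  split_ifs <;> norm_num

lemma sgn_mul_sgn (a b : ZMod 2) : (sgn a : ℚ̄) * sgn b = sgn (a + b) := by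
  have h : ∀ c : ZMod 2, c = 0 ∨ c = 1 := by decide
  rcases h a with rfl | rfl <;> rcases h b with rfl | rfl <;>
    simp [sgn, show (1 : ZMod 2) + 1 = 0 from by decide]

lemma apply_sgn (σ : Γℚ) (a : ZMod 2) : σ (sgn a : ℚ̄) = sgn a := by
  unfold sgn
  split_ifs <;> simp

variable {T : CubicRoots}

lemma CubicRoots.IsCocycle.apply_mul {x : Γℚ → Fin 3 → ZMod 2} (hx : T.IsCocycle x) (σ τ : Γℚ)
    (i : Fin 3) : x (σ * τ) (T.perm σ i) = x σ (T.perm σ i) + x τ i := by
  rw [hx.map_mul, Pi.add_apply, CubicRoots.act, Equiv.symm_apply_apply]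

/-- **Kummer generators of a cocycle.** -/
theorem CubicRoots.IsCocycle.exists_kummer {x : Γℚ → Fin 3 → ZMod 2} (hx : T.IsCocycle x) :
    ∃ s : Fin 3 → ℚ̄, (∀ i, s i ≠ 0) ∧
      (∀ (τ : Γℚ) (i : Fin 3), τ (s i) = sgn (x τ (T.perm τ i)) * s (T.perm τ i)) ∧
      ∃ c : ℚ, (c : ℚ̄) = ∏ i, s i := by
  classical
  obtain ⟨L, hL, hL0⟩ := hx.cont
  have : FiniteDimensional ℚ (IntermediateField.adjoin ℚ (Set.range T.root)) :=
    IntermediateField.finiteDimensional_adjoin fun x _ =>
      (Algebra.IsAlgebraic.isAlgebraic x).isIntegral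
  let E : IntermediateField ℚ ℚ̄ :=
    IntermediateField.normalClosure ℚ ↥(L ⊔ IntermediateField.adjoin ℚ (Set.range T.root)) ℚ̄
  have : Normal ℚ E := normalClosure.normal ℚ _ _
  have : FiniteDimensional ℚ E := normalClosure.is_finiteDimensional ℚ _ _
  have hle : L ⊔ IntermediateField.adjoin ℚ (Set.range T.root) ≤ E :=
    IntermediateField.le_normalClosure _
  have hagree : ∀ σ σ' : Γℚ, (∀ y ∈ E, σ y = σ' y) → x σ = x σ' ∧ T.perm σ = T.perm σ' := by
    intro σ σ' h
    constructor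
    · have h1 : x (σ'⁻¹ * σ) = 0 := hL0 _ fun y hy => by
        rw [AlgEquiv.mul_apply, h y (hle (SetLike.le_def.1 le_sup_left hy))]
        exact σ'.symm_apply_apply y
      have h2 := hx.map_mul σ' (σ'⁻¹ * σ)
      rw [mul_inv_cancel_left, h1] at h2
      rwa [show T.act σ' (0 : Fin 3 → ZMod 2) = 0 from rfl, add_zero] at h2
    · refine Equiv.ext fun i => T.root_injective ?_
      rw [← T.apply_root, ← T.apply_root]
      exact h _ (hle (SetLike.le_def.1 le_sup_right
        (IntermediateField.subset_adjoin ℚ _ ⟨i, rfl⟩)))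
  let lift : (E ≃ₐ[ℚ] E) → Γℚ := fun g => g.liftNormal ℚ̄
  have hlift : ∀ (g : E ≃ₐ[ℚ] E) (z : E), lift g (z : ℚ̄) = (g z : ℚ̄) := fun g z =>
    g.liftNormal_commutes ℚ̄ z
  let S : E → Fin 3 → ℚ̄ := fun z i =>
    ∑ g ∈ Finset.univ.filter fun g : E ≃ₐ[ℚ] E => T.perm (lift g) 0 = i,
      sgn (x (lift g) i) * (g z : ℚ̄)
  have htrans : ∀ (z : E) (τ : Γℚ) (i : Fin 3),
      τ (S z i) = sgn (x τ (T.perm τ i)) * S z (T.perm τ i) := by
    intro z τ i
    simp only [S, map_sum, Finset.mul_sum]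
    refine Finset.sum_equiv (Equiv.mulLeft (τ.restrictNormal E)) (fun g => ?_) fun g hg => ?_
    · simp only [Finset.mem_filter, Finset.mem_univ, true_and, Equiv.coe_mulLeft]
      have h := (hagree (lift (τ.restrictNormal E * g)) (τ * lift g) fun y hy => by
        rw [show y = ((⟨y, hy⟩ : E) : ℚ̄) from rfl, hlift, AlgEquiv.mul_apply, AlgEquiv.mul_apply,
          hlift]
        exact AlgEquiv.restrictNormal_commutes τ E _).2
      rw [h, _root_.map_mul, Equiv.Perm.mul_apply]
      exact (T.perm τ).injective.eq_iff.symm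
    · simp only [Finset.mem_filter, Finset.mem_univ, true_and] at hg
      simp only [Equiv.coe_mulLeft]
      obtain ⟨hxg, -⟩ := hagree (lift (τ.restrictNormal E * g)) (τ * lift g) fun y hy => by
        rw [show y = ((⟨y, hy⟩ : E) : ℚ̄) from rfl, hlift, AlgEquiv.mul_apply, AlgEquiv.mul_apply,
          hlift]
        exact AlgEquiv.restrictNormal_commutes τ E _
      rw [hxg, hx.apply_mul, _root_.map_mul, apply_sgn, ← mul_assoc, sgn_mul_sgn, ← add_assoc,
        CharTwo.add_self_eq_zero, zero_add, AlgEquiv.mul_apply]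
      congr 1
      exact (AlgEquiv.restrictNormal_commutes τ E _).symm
  obtain ⟨z, hz⟩ : ∃ z : E, S z 0 ≠ 0 := by
    by_contra! hzero
    let f : (E ≃ₐ[ℚ] E) → (E →* ℚ̄) := fun g =>
      ((algebraMap E ℚ̄).comp (g : E →+* E)).toMonoidHom
    have hf : Function.Injective f := fun g h e => AlgEquiv.ext fun y => by
      exact (algebraMap E ℚ̄).injective (DFunLike.congr_fun e y)
    have hli : LinearIndependent ℚ̄ fun g => (f g : E → ℚ̄) :=
      (linearIndependent_monoidHom E ℚ̄).comp f hf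
    rw [Fintype.linearIndependent_iff] at hli
    have h := hli (fun g => if T.perm (lift g) 0 = 0 then sgn (x (lift g) 0) else 0) ?_ 1
    · have h1 : T.perm (lift 1) 0 = 0 := by
        rw [(hagree (lift 1) 1 fun y hy => by
          rw [show y = ((⟨y, hy⟩ : E) : ℚ̄) from rfl, hlift]; rfl).2, map_one]
        rfl
      simp only [h1, if_true] at h
      exact sgn_ne_zero _ h
    · funext y
      rw [Finset.sum_apply, Pi.zero_apply]
      refine Eq.trans ?_ (hzero y)
      simp only [S, Finset.sum_filter]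
      refine Finset.sum_congr rfl fun g _ => ?_
      split_ifs with hg
      · rfl
      · exact zero_mul _
  refine ⟨S z, fun i => ?_, htrans z, ?_⟩
  · obtain ⟨τ, hτ⟩ := T.transitive i
    intro h
    refine hz ((map_eq_zero τ).1 ?_)
    rw [htrans, hτ, h, mul_zero]
  · have hfix : ∀ τ : Γℚ, τ (∏ i, S z i) = ∏ i, S z i := by
      intro τ
      rw [map_prod]
      simp_rw [htrans z τ]
      rw [Finset.prod_mul_distrib, Equiv.prod_comp (T.perm τ) (fun i => (sgn (x τ i) : ℚ̄)),
        Equiv.prod_comp (T.perm τ) (S z), Fin.prod_univ_three, sgn_mul_sgn, sgn_mul_sgn,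
        ← Fin.sum_univ_three, hx.sum_eq_zero]
      simp [sgn]
    obtain ⟨c, hc⟩ := (InfiniteGalois.mem_range_algebraMap_iff_fixed (k := ℚ) _).2 hfix
    exact ⟨c, by rw [← hc, eq_ratCast]⟩

end Fermat.Agent.TwoAdic.Selmer

end
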