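import Fermat.Agent.TwoAdic.Symbol.Cubic

/-!
# The local conditions are isotropic for the cubic pairing

A class `x` is represented by square roots `t i` with `τ (t i) = (-1) ^ (x τ (τ i)) * t (τ i)`;
its Kummer family is `t i ^ 2`.
-/

set_option autoImplicit false

noncomputable section

namespace Fermat.Agent.TwoAdic.Selmer

open Fermat.Agent.TwoAdic.Symbol
open Fermat.Agent.ClassField.Idele
open Fermat.Agent.ClassField

lemma sgn_zero {R : Type*} [One R] [Neg R] : (sgn 0 : R) = 1 := if_pos rfl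

lemma sgn_of_ne_zero {R : Type*} [One R] [Neg R] {a : ZMod 2} (h : a ≠ 0) : (sgn a : R) = -1 :=
  if_neg h

lemma sgn_sq {R : Type*} [CommRing R] (a : ZMod 2) : (sgn a : R) ^ 2 = 1 := by
  rw [sgn]; split_ifs <;> ring

lemma exists_pair (r : Fin 3) : ∃ j k : Fin 3, j < k ∧ j ≠ r ∧ k ≠ r ∧ Finset.univ = {r, j, k} := by
  revert r; decide

section Generic

variable {k K : Type*} [Field k] [Field K] [Algebra k K] {T : CubicRoots} {P : Place k K}
  {X Y : (K ≃ₐ[k] K) → Fin 3 → ZMod 2} {t s : Fin 3 → K}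

/-- Square roots of the Kummer family of a class. -/
structure IsKummer (T : CubicRoots) (P : Place k K) (X : (K ≃ₐ[k] K) → Fin 3 → ZMod 2)
    (t : Fin 3 → K) : Prop where
  ne_zero : ∀ i, t i ≠ 0
  apply_root : ∀ τ i, τ (t i) = sgn (X τ (lperm T P τ i)) * t (lperm T P τ i)
  sum_eq_zero : ∀ τ, ∑ i, X τ i = 0

lemma IsKummer.isLocalFam (h : IsKummer T P X t) : IsLocalFam T P fun i => t i ^ 2 := fun τ i => by
  rw [map_pow, h.apply_root, mul_pow, sgn_sq, one_mul]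

lemma IsKummer.apply_fixed (h : IsKummer T P X t) {τ : K ≃ₐ[k] K} {i : Fin 3}
    (hτ : lperm T P τ i = i) : τ (t i) = sgn (X τ i) * t i := by
  rw [h.apply_root, hτ]

lemma lperm_eq_of_forall_mem_fld {τ : K ≃ₐ[k] K} {i : Fin 3}
    (hτ : ∀ y ∈ fld T P i, τ y = y) : lperm T P τ i = i :=
  apply_theta_eq_iff.1 (hτ _ (theta_mem_fld i))

variable [IsGalois k K]

lemma IsKummer.prod_mem_bot (h : IsKummer T P X t) :
    ∏ i, t i ∈ (⊥ : IntermediateField k K) := by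
  refine mem_bot_of_fixed fun τ => ?_
  rw [map_prod, Finset.prod_congr rfl fun i _ => h.apply_root τ i,
    Equiv.prod_comp (lperm T P τ) fun i => sgn (X τ i) * t i, Finset.prod_mul_distrib]
  have h1 : ∏ i, (sgn (X τ i) : K) = 1 := by
    have hs := h.sum_eq_zero τ
    rw [Fin.sum_univ_three] at hs
    rw [Fin.prod_univ_three]
    revert hs
    generalize X τ 0 = a
    generalize X τ 1 = b
    generalize X τ 2 = c
    intro hs
    have key : ∀ a b c : ZMod 2, a + b + c = 0 →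
        (a = 0 ∧ b = 0 ∧ c = 0) ∨ (a = 0 ∧ b ≠ 0 ∧ c ≠ 0) ∨ (a ≠ 0 ∧ b = 0 ∧ c ≠ 0) ∨
          (a ≠ 0 ∧ b ≠ 0 ∧ c = 0) := by decide
    rcases key a b c hs with ⟨ha, hb, hc⟩ | ⟨ha, hb, hc⟩ | ⟨ha, hb, hc⟩ | ⟨ha, hb, hc⟩ <;>
      simp [sgn, ha, hb, hc]
  rw [h1, one_mul]

lemma IsKummer.mem_fld (h : IsKummer T P X t) {i : Fin 3}
    (h0 : ∀ τ, lperm T P τ i = i → X τ i = 0) : t i ∈ fld T P i :=
  mem_fld_of_fixed fun τ hτ => by rw [h.apply_fixed hτ, h0 τ hτ, sgn_zero, one_mul]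

omit [IsGalois k K] in
/-- The shape of the pairing when a root is fixed. -/
lemma pairing_fixed_cases {r : Fin 3} (hr : ∀ τ : K ≃ₐ[k] K, lperm T P τ r = r)
    (a b : Fin 3 → K) : ∃ j l : Fin 3, j ≠ r ∧ l ≠ r ∧ j ≠ l ∧ (∀ i, i = r ∨ i = j ∨ i = l) ∧
    (((∀ τ i, lperm T P τ i = i) ∧ pairing T P a b =
        hs (fld T P r) (a r) (b r) *
          (hs (fld T P j) (a j) (b j) * hs (fld T P l) (a l) (b l))) ∨
      ((∃ τ, lperm T P τ j = l ∧ lperm T P τ l = j) ∧ pairing T P a b =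
        hs (fld T P r) (a r) (b r) * hs (fld T P j) (a j) (b j))) := by
  classical
  obtain ⟨j, l, hjl, hjr, hlr, hu⟩ := exists_pair r
  have hall : ∀ i, i = r ∨ i = j ∨ i = l := fun i => by
    have := hu ▸ Finset.mem_univ i
    simpa using this
  refine ⟨j, l, hjr, hlr, hjl.ne, hall, ?_⟩
  have hrep : ∀ i, i ∈ reps T P ↔ ∀ τ : K ≃ₐ[k] K, i ≤ lperm T P τ i := fun i => by simp [reps]
  by_cases hfix : ∀ (τ : K ≃ₐ[k] K) i, lperm T P τ i = i
  · refine Or.inl ⟨hfix, ?_⟩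
    have hreps : reps T P = {r, j, l} := by
      rw [← hu]
      exact Finset.eq_univ_of_forall fun i => (hrep i).2 fun τ => (hfix τ i).ge
    rw [pairing, hreps, Finset.prod_insert (by simp [hjr.symm, hlr.symm]),
      Finset.prod_pair hjl.ne]
  · push Not at hfix
    obtain ⟨τ, i, hi⟩ := hfix
    have hne : ∀ (σ : K ≃ₐ[k] K) {m : Fin 3}, m ≠ r → lperm T P σ m ≠ r := fun σ m hm h =>
      hm ((lperm T P σ).injective (h.trans (hr σ).symm))
    have hjl' : lperm T P τ j = l ∧ lperm T P τ l = j := by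
      have h1 := (hall (lperm T P τ j)).resolve_left (hne τ hjr)
      have h2 := (hall (lperm T P τ l)).resolve_left (hne τ hlr)
      rcases h1 with h1 | h1
      · have h2' : lperm T P τ l = l :=
          h2.resolve_left fun h => hjl.ne' ((lperm T P τ).injective (h.trans h1.symm))
        refine absurd ?_ hi
        rcases hall i with rfl | rfl | rfl
        · exact hr τ
        · exact h1
        · exact h2'
      · exact ⟨h1, h2.resolve_right fun h => hjl.ne ((lperm T P τ).injective (h1.trans h.symm))⟩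
    refine Or.inr ⟨⟨τ, hjl'⟩, ?_⟩
    have hreps : reps T P = {r, j} := by
      refine Finset.ext fun i => ?_
      rw [hrep, Finset.mem_insert, Finset.mem_singleton]
      refine ⟨fun h => ?_, fun h σ => ?_⟩
      · rcases hall i with h' | h' | rfl
        · exact Or.inl h'
        · exact Or.inr h'
        · exact absurd (hjl'.2 ▸ h τ) (not_le.2 hjl)
      · rcases h with rfl | rfl
        · exact (hr σ).ge
        · rcases (hall (lperm T P σ i)).resolve_left (hne σ hjr) with h | h <;> rw [h]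
          exact hjl.le
    rw [pairing, hreps, Finset.prod_pair hjr.symm]

omit [IsGalois k K] in
lemma nrm_pair_of_mem_bot {r j l : Fin 3} (hr : ∀ τ : K ≃ₐ[k] K, lperm T P τ r = r)
    (hjr : j ≠ r) (hjl : j ≠ l) (hall : ∀ i, i = r ∨ i = j ∨ i = l)
    (hτ : ∃ τ, lperm T P τ j = l ∧ lperm T P τ l = j) {c : K}
    (hc : c ∈ (⊥ : IntermediateField k K)) : nrm T P j c = c ^ 2 := by
  obtain ⟨τ, hτ, -⟩ := hτ
  have horb : orbit T P j = {j, l} := by
    refine Finset.ext fun i => ⟨fun h => ?_, fun h => ?_⟩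
    · obtain ⟨σ, rfl⟩ := mem_orbit.1 h
      have := (hall (lperm T P σ j)).resolve_left
        fun h => hjr ((lperm T P σ).injective (h.trans (hr σ).symm))
      simpa using this
    · rcases Finset.mem_insert.1 h with rfl | h
      · exact self_mem_orbit _
      · rw [Finset.mem_singleton.1 h]; exact mem_orbit.2 ⟨τ, hτ⟩
  rw [nrm_of_mem_bot hc, horb, Finset.card_pair hjl]

variable [CharZero K] [IsAlgClosed K] [IndexTwo k K]

omit [IsGalois k K] [CharZero K] [IsAlgClosed K] in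
lemma hs_mul_sq_left {F : IntermediateField k K} [FiniteDimensional k F] {a b c : K} (ha : a ∈ F)
    (hb : b ∈ F) (hc : c ∈ F) (ha0 : a ≠ 0) (hb0 : b ≠ 0) (hc0 : c ≠ 0) :
    hs F (a * c ^ 2) b = hs F a b := by
  rw [hs_mul_left ha (pow_mem hc 2) hb ha0 (pow_ne_zero 2 hc0) hb0, hs_sq_left hc, mul_one]

omit [IsGalois k K] [IsAlgClosed K] in
lemma hs_mul_sq_right {F : IntermediateField k K} [FiniteDimensional k F] {a b c : K} (ha : a ∈ F)
    (hb : b ∈ F) (hc : c ∈ F) (ha0 : a ≠ 0) (hb0 : b ≠ 0) (hc0 : c ≠ 0) :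
    hs F a (b * c ^ 2) = hs F a b := by
  rw [hs_comm ha (mul_mem hb (pow_mem hc 2)) ha0 (mul_ne_zero hb0 (pow_ne_zero 2 hc0)),
    hs_mul_sq_left hb ha hc hb0 ha0 hc0, hs_comm hb ha hb0 ha0]

/-- Two classes of `k` pair trivially over the field of a root with orbit of size two. -/
lemma hs_bot_of_swap {r j l : Fin 3} (hr : ∀ τ : K ≃ₐ[k] K, lperm T P τ r = r) (hjr : j ≠ r)
    (hjl : j ≠ l) (hall : ∀ i, i = r ∨ i = j ∨ i = l)
    (hτ : ∃ τ, lperm T P τ j = l ∧ lperm T P τ l = j) {u w : K}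
    (hu : u ∈ (⊥ : IntermediateField k K)) (hw : w ∈ (⊥ : IntermediateField k K))
    (hu0 : u ≠ 0) (hw0 : w ≠ 0) : hs (fld T P j) u w = 1 := by
  rw [hs_nrm hw hw0 ((bot_le : ⊥ ≤ fld T P j) hu) hu0,
    nrm_pair_of_mem_bot hr hjr hjl hall hτ hu, hs_sq_left hu]

omit [IsGalois k K] [CharZero K] [IsAlgClosed K] [IndexTwo k K] in
/-- The value `x τ j = x τ l` when the component at the fixed root vanishes. -/
lemma IsKummer.eq_of_eq_zero (h : IsKummer T P X t) {r j l : Fin 3} (hjr : j ≠ r) (hlr : l ≠ r)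
    (hjl : j ≠ l) (hall : ∀ i, i = r ∨ i = j ∨ i = l) {τ : K ≃ₐ[k] K} (h0 : X τ r = 0) :
    X τ j = X τ l := by
  have hu : (Finset.univ : Finset (Fin 3)) = {r, j, l} :=
    (Finset.eq_univ_of_forall fun i => by simpa using hall i).symm
  have hs := h.sum_eq_zero τ
  rw [hu, Finset.sum_insert (by simp [hjr.symm, hlr.symm]), Finset.sum_pair hjl, h0, zero_add]
    at hs
  revert hs
  generalize X τ j = a
  generalize X τ l = b
  revert a b
  decide

omit [IsAlgClosed K] [IndexTwo k K] in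
lemma IsKummer.exists_bot_class (h : IsKummer T P X t) {r j l : Fin 3}
    (hr : ∀ τ : K ≃ₐ[k] K, lperm T P τ r = r) (h0 : ∀ τ, X τ r = 0) (hjr : j ≠ r) (hlr : l ≠ r)
    (hjl : j ≠ l) (hall : ∀ i, i = r ∨ i = j ∨ i = l) :
    ∃ u ∈ (⊥ : IntermediateField k K), ∃ c ∈ fld T P j, u ≠ 0 ∧ c ≠ 0 ∧
      t j ^ 2 = u * c ^ 2 := by
  have hact : ∀ τ : K ≃ₐ[k] K, (lperm T P τ j = j ∧ lperm T P τ l = l) ∨
      (lperm T P τ j = l ∧ lperm T P τ l = j) := by
    intro τ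
    have hne : ∀ {m : Fin 3}, m ≠ r → lperm T P τ m ≠ r := fun hm h =>
      hm ((lperm T P τ).injective (h.trans (hr τ).symm))
    rcases (hall (lperm T P τ j)).resolve_left (hne hjr) with h1 | h1 <;>
      rcases (hall (lperm T P τ l)).resolve_left (hne hlr) with h2 | h2
    · exact absurd ((lperm T P τ).injective (h1.trans h2.symm)) hjl
    · exact Or.inl ⟨h1, h2⟩
    · exact Or.inr ⟨h1, h2⟩
    · exact absurd ((lperm T P τ).injective (h1.trans h2.symm)) hjl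
  have heq : ∀ τ, X τ j = X τ l := fun τ => h.eq_of_eq_zero hjr hlr hjl hall (h0 τ)
  have hact' : ∀ τ : K ≃ₐ[k] K, (τ (t j) = sgn (X τ j) * t j ∧ τ (t l) = sgn (X τ j) * t l) ∨
      (τ (t j) = sgn (X τ j) * t l ∧ τ (t l) = sgn (X τ j) * t j) := by
    intro τ
    rcases hact τ with ⟨h1, h2⟩ | ⟨h1, h2⟩
    · exact Or.inl ⟨by rw [h.apply_root, h1], by rw [h.apply_root, h2, heq]⟩
    · exact Or.inr ⟨by rw [h.apply_root, h1, heq], by rw [h.apply_root, h2]⟩
  by_cases hT : t j + t l = 0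
  · refine ⟨t j ^ 2, mem_bot_of_fixed fun τ => ?_, 1, one_mem _, pow_ne_zero 2 (h.ne_zero j),
      one_ne_zero, by ring⟩
    have hl : t l = -t j := eq_neg_of_add_eq_zero_right hT
    rcases hact' τ with ⟨h1, -⟩ | ⟨h1, -⟩ <;> rw [map_pow, h1, mul_pow, sgn_sq, one_mul]
    rw [hl, neg_sq]
  · have hTτ : ∀ τ, τ (t j + t l) = sgn (X τ j) * (t j + t l) := fun τ => by
      rcases hact' τ with ⟨h1, h2⟩ | ⟨h1, h2⟩ <;> rw [map_add, h1, h2] <;> ring
    refine ⟨(t j + t l) ^ 2, mem_bot_of_fixed fun τ => ?_, t j / (t j + t l),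
      mem_fld_of_fixed fun τ hτ => ?_, pow_ne_zero 2 hT, div_ne_zero (h.ne_zero j) hT, ?_⟩
    · rw [map_pow, hTτ, mul_pow, sgn_sq, one_mul]
    · rw [map_div₀, h.apply_fixed hτ, hTτ, mul_div_mul_left]
      intro h0'
      have := sgn_sq (R := K) (X τ j)
      rw [h0'] at this
      norm_num at this
    · field_simp

/-- The line condition is isotropic. -/
theorem pairing_eq_one_of_line (hX : IsKummer T P X t) (hY : IsKummer T P Y s) {r : Fin 3}
    (hr : ∀ τ : K ≃ₐ[k] K, lperm T P τ r = r) (hX0 : ∀ τ, X τ r = 0) (hY0 : ∀ τ, Y τ r = 0) :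
    pairing T P (fun i => t i ^ 2) (fun i => s i ^ 2) = 1 := by
  obtain ⟨j, l, hjr, hlr, hjl, hall, hcase⟩ :=
    pairing_fixed_cases hr (fun i => t i ^ 2) (fun i => s i ^ 2)
  have hrterm : hs (fld T P r) (t r ^ 2) (s r ^ 2) = 1 :=
    hs_sq_left (hX.mem_fld fun τ _ => hX0 τ)
  rcases hcase with ⟨hfix, hp⟩ | ⟨hτ, hp⟩ <;> rw [hp, hrterm, one_mul]
  · have hsame : ∀ {Z : (K ≃ₐ[k] K) → Fin 3 → ZMod 2} {w : Fin 3 → K}, IsKummer T P Z w →
        (∀ τ, Z τ r = 0) → w l / w j ∈ (⊥ : IntermediateField k K) := by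
      intro Z w hZ hZ0
      refine mem_bot_of_fixed fun τ => ?_
      rw [map_div₀, hZ.apply_fixed (hfix τ l), hZ.apply_fixed (hfix τ j),
        hZ.eq_of_eq_zero hjr hlr hjl hall (hZ0 τ), mul_div_mul_left]
      intro h0'
      have := sgn_sq (R := K) (Z τ l)
      rw [h0'] at this
      norm_num at this
    have hfld : ∀ i, fld T P i = (⊥ : IntermediateField k K) := fun i =>
      le_bot_iff.1 fun y hy =>
        mem_bot_of_fixed fun τ => apply_eq_self_of_mem_fld hy (hfix τ i)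
    rw [hfld j, hfld l]
    set c := t l / t j
    set d := s l / s j
    have htm : t j ^ 2 ∈ (⊥ : IntermediateField k K) := hfld j ▸ hX.isLocalFam.mem_fld j
    have hsm : s j ^ 2 ∈ (⊥ : IntermediateField k K) := hfld j ▸ hY.isLocalFam.mem_fld j
    have hc := hsame hX hX0
    have hd := hsame hY hY0
    have hc0 : c ≠ 0 := div_ne_zero (hX.ne_zero l) (hX.ne_zero j)
    have hd0 : d ≠ 0 := div_ne_zero (hY.ne_zero l) (hY.ne_zero j)
    have ht0 := pow_ne_zero 2 (hX.ne_zero j)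
    have hs0 := pow_ne_zero 2 (hY.ne_zero j)
    rw [show t l ^ 2 = t j ^ 2 * c ^ 2 by simp only [c]; field_simp [hX.ne_zero j],
      show s l ^ 2 = s j ^ 2 * d ^ 2 by simp only [d]; field_simp [hY.ne_zero j],
      hs_mul_sq_left htm (mul_mem hsm (pow_mem hd 2)) hc ht0
        (mul_ne_zero hs0 (pow_ne_zero 2 hd0)) hc0,
      hs_mul_sq_right htm hsm hd ht0 hs0 hd0, Int.units_mul_self]
  · obtain ⟨u, hu, c, hc, hu0, hc0, e⟩ := hX.exists_bot_class hr hX0 hjr hlr hjl hall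
    obtain ⟨w, hw, d, hd, hw0, hd0, e'⟩ := hY.exists_bot_class hr hY0 hjr hlr hjl hall
    have huj : u ∈ fld T P j := (bot_le : ⊥ ≤ fld T P j) hu
    have hwj : w ∈ fld T P j := (bot_le : ⊥ ≤ fld T P j) hw
    rw [e, e', hs_mul_sq_left huj (mul_mem hwj (pow_mem hd 2)) hc hu0
      (mul_ne_zero hw0 (pow_ne_zero 2 hd0)) hc0, hs_mul_sq_right huj hwj hd hu0 hw0 hd0]
    exact hs_bot_of_swap hr hjr hjl hall hτ hu hw hu0 hw0

omit [CharZero K] [IsAlgClosed K] [IndexTwo k K] in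
/-- Classes trivial at every fixed root pair trivially. -/
theorem pairing_eq_one_of_trivial (hX : IsKummer T P X t)
    (h0 : ∀ τ i, lperm T P τ i = i → X τ i = 0) :
    pairing T P (fun i => t i ^ 2) (fun i => s i ^ 2) = 1 :=
  Finset.prod_eq_one fun i _ => hs_sq_left (hX.mem_fld fun τ => h0 τ i)

end Generic

section Padic

variable {v : Nat.Primes} {T : CubicRoots}
  {X Y : LocalGal v → Fin 3 → ZMod 2} {t s : Fin 3 → PadicAlgCl (v : ℕ)}

local notation "K" => PadicAlgCl (v : ℕ)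
local notation "Pv" => padicPl v

lemma unrSqrt_of_vanishes (hX : IsKummer T Pv X t) {i : Fin 3}
    (h : ∀ τ ∈ localInertia v, lperm T Pv τ i = i → X τ i = 0) :
    UnrSqrt (fld T Pv i) (t i ^ 2) :=
  ⟨t i, rfl, fun τ hτ hF => by
    have hi := lperm_eq_of_forall_mem_fld hF
    rw [hX.apply_fixed hi, h τ hτ hi, sgn_zero, one_mul]⟩

/-- Unramified classes at an odd place pair trivially. -/
theorem pairing_eq_one_of_unramified (hX : IsKummer T Pv X t) (hY : IsKummer T Pv Y s)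
    (h : ∀ τ ∈ localInertia v, X τ = 0) (h' : ∀ τ ∈ localInertia v, Y τ = 0) :
    pairing T Pv (fun i => t i ^ 2) (fun i => s i ^ 2) = 1 :=
  Finset.prod_eq_one fun i _ =>
    hs_eq_one_of_unrSqrt (hX.isLocalFam.mem_fld i) (hY.isLocalFam.mem_fld i)
      (pow_ne_zero 2 (hX.ne_zero i)) (pow_ne_zero 2 (hY.ne_zero i))
      (unrSqrt_of_vanishes hX fun τ hτ _ => by rw [h τ hτ]; rfl)
      (unrSqrt_of_vanishes hY fun τ hτ _ => by rw [h' τ hτ]; rfl)

/-- In the unit case a component is a fixed unit times an unramified class. -/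
lemma exists_unit_class (hX : IsKummer T Pv X t) {u : ℚ_[(v : ℕ)]} {t₀ : K} (hu : ‖u‖ = 1)
    (ht₀ : t₀ ^ 2 = algebraMap ℚ_[(v : ℕ)] K u) {i : Fin 3}
    (hperm : ∀ τ ∈ localInertia v, lperm T Pv τ i = i)
    (hval : ∀ τ ∈ localInertia v, τ t₀ = sgn (X τ i) * t₀) :
    ∃ z ∈ fld T Pv i, z ≠ 0 ∧ UnrSqrt (fld T Pv i) z ∧
      t i ^ 2 = algebraMap ℚ_[(v : ℕ)] K u * z := by
  have hu0 : algebraMap ℚ_[(v : ℕ)] K u ≠ 0 :=
    (map_ne_zero _).2 fun h => by rw [h, norm_zero] at hu; norm_num at hu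
  have ht0 : t₀ ≠ 0 := fun h => hu0 (by rw [← ht₀, h]; ring)
  refine ⟨t i ^ 2 / algebraMap ℚ_[(v : ℕ)] K u,
    div_mem (hX.isLocalFam.mem_fld i) (IntermediateField.algebraMap_mem _ u),
    div_ne_zero (pow_ne_zero 2 (hX.ne_zero i)) hu0,
    ⟨t i / t₀, by rw [div_pow, ht₀], fun τ hτ _ => ?_⟩, (mul_div_cancel₀ _ hu0).symm⟩
  rw [map_div₀, hX.apply_fixed (hperm τ hτ), hval τ hτ, mul_div_mul_left]
  intro h0'
  have := sgn_sq (R := K) (X τ i)
  rw [h0'] at this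
  norm_num at this

/-- The unit condition is isotropic. -/
theorem pairing_eq_one_of_peu (hX : IsKummer T Pv X t) (hY : IsKummer T Pv Y s) {r : Fin 3}
    (hr : ∀ τ : LocalGal v, lperm T Pv τ r = r)
    (hperm : ∀ τ ∈ localInertia v, lperm T Pv τ = 1)
    (hX0 : ∀ τ ∈ localInertia v, X τ r = 0) (hY0 : ∀ τ ∈ localInertia v, Y τ r = 0)
    (hXu : ∃ (u : ℚ_[(v : ℕ)]) (t₀ : K), ‖u‖ = 1 ∧ t₀ ^ 2 = algebraMap ℚ_[(v : ℕ)] K u ∧
      ∀ τ ∈ localInertia v, ∀ j : Fin 3, j ≠ r → τ t₀ = sgn (X τ j) * t₀)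
    (hYu : ∃ (u : ℚ_[(v : ℕ)]) (t₀ : K), ‖u‖ = 1 ∧ t₀ ^ 2 = algebraMap ℚ_[(v : ℕ)] K u ∧
      ∀ τ ∈ localInertia v, ∀ j : Fin 3, j ≠ r → τ t₀ = sgn (Y τ j) * t₀) :
    pairing T Pv (fun i => t i ^ 2) (fun i => s i ^ 2) = 1 := by
  obtain ⟨u, t₀, hu, ht₀, hval⟩ := hXu
  obtain ⟨w, s₀, hw, hs₀, hwal⟩ := hYu
  set U := algebraMap ℚ_[(v : ℕ)] K u with hU
  set W := algebraMap ℚ_[(v : ℕ)] K w with hW
  have hUn : ‖U‖ = 1 := by rw [hU, norm_algebraMap', hu]
  have hWn : ‖W‖ = 1 := by rw [hW, norm_algebraMap', hw]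
  have hU0 : U ≠ 0 := norm_ne_zero_iff.1 (hUn.trans_ne one_ne_zero)
  have hW0 : W ≠ 0 := norm_ne_zero_iff.1 (hWn.trans_ne one_ne_zero)
  have hUb : U ∈ (⊥ : IntermediateField ℚ_[(v : ℕ)] K) := IntermediateField.algebraMap_mem _ u
  have hWb : W ∈ (⊥ : IntermediateField ℚ_[(v : ℕ)] K) := IntermediateField.algebraMap_mem _ w
  obtain ⟨j, l, hjr, hlr, hjl, hall, hcase⟩ :=
    pairing_fixed_cases hr (fun i => t i ^ 2) (fun i => s i ^ 2)
  have hpi : ∀ i, ∀ τ ∈ localInertia v, lperm T Pv τ i = i := fun i τ hτ => by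
    rw [hperm τ hτ]; rfl
  have hterm : ∀ i, i ≠ r → hs (fld T Pv i) (t i ^ 2) (s i ^ 2) = hs (fld T Pv i) U W := by
    intro i hi
    obtain ⟨z, hz, hz0, hzu, e⟩ := exists_unit_class hX hu ht₀ (hpi i) fun τ hτ => hval τ hτ i hi
    obtain ⟨z', hz', hz'0, hzu', e'⟩ :=
      exists_unit_class hY hw hs₀ (hpi i) fun τ hτ => hwal τ hτ i hi
    have hUi : U ∈ fld T Pv i := IntermediateField.algebraMap_mem _ u
    have hWi : W ∈ fld T Pv i := IntermediateField.algebraMap_mem _ w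
    rw [e, e', ← hU, ← hW, hs_mul_left hUi hz (mul_mem hWi hz') hU0 hz0 (mul_ne_zero hW0 hz'0),
      hs_mul_right hUi hWi hz' hU0 hW0 hz'0, hs_mul_right hz hWi hz' hz0 hW0 hz'0,
      hs_eq_one_of_evenVal hUi hz' hU0 hz'0 hzu' (evenVal_of_norm_one hUn), mul_one,
      hs_comm hz hWi hz0 hW0,
      hs_eq_one_of_evenVal hWi hz hW0 hz0 hzu (evenVal_of_norm_one hWn),
      hs_eq_one_of_unrSqrt hz hz' hz0 hz'0 hzu hzu', mul_one, mul_one]
  have hrterm : hs (fld T Pv r) (t r ^ 2) (s r ^ 2) = 1 :=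
    hs_eq_one_of_unrSqrt (hX.isLocalFam.mem_fld r) (hY.isLocalFam.mem_fld r)
      (pow_ne_zero 2 (hX.ne_zero r)) (pow_ne_zero 2 (hY.ne_zero r))
      (unrSqrt_of_vanishes hX fun τ hτ _ => hX0 τ hτ)
      (unrSqrt_of_vanishes hY fun τ hτ _ => hY0 τ hτ)
  rcases hcase with ⟨hfix, hp⟩ | ⟨hτ, hp⟩ <;> rw [hp, hrterm, one_mul, hterm j hjr]
  · have hfld : ∀ i, fld T Pv i = (⊥ : IntermediateField ℚ_[(v : ℕ)] K) := fun i =>
      le_bot_iff.1 fun y hy =>
        mem_bot_of_fixed fun τ => apply_eq_self_of_mem_fld hy (hfix τ i)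
    rw [hterm l hlr, hfld j, hfld l, Int.units_mul_self]
  · exact hs_bot_of_swap hr hjr hjl hall hτ hUb hWb hU0 hW0

lemma exists_norm_eq_bot_of_inertia {i : Fin 3}
    (hperm : ∀ τ ∈ localInertia v, lperm T Pv τ i = i) {x : K} (hx : x ∈ fld T Pv i)
    (hx0 : x ≠ 0) : ∃ c ∈ (⊥ : IntermediateField ℚ_[(v : ℕ)] K), ‖x‖ = ‖c‖ := by
  set F := (⊥ : IntermediateField ℚ_[(v : ℕ)] K)
  set E := fld T Pv i
  have he : PadicFields.ramIdx E = PadicFields.ramIdx F := by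
    refine PadicFields.ramIdx_eq_of_fix F E bot_le fun τ hτ => ?_
    obtain ⟨-, hτR⟩ := Subgroup.mem_inf.1 hτ
    rw [IntermediateField.mem_fixingSubgroup_iff]
    exact fun y hy => apply_eq_self_of_mem_fld hy
      (hperm τ fun w hw => PadicFields.norm_apply_sub_lt_of_fix hτR hw)
  obtain ⟨m, hm⟩ := PadicFields.exists_norm_eq_zpow E (x := ⟨x, hx⟩)
    fun h => hx0 (congrArg Subtype.val h)
  rw [PadicFields.norm_def] at hm
  simp only at hm
  have hunif : ‖PadicFields.uniformizer E‖ = ‖PadicFields.uniformizer F‖ := by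
    have h1 : ‖PadicFields.uniformizer E‖ ^ PadicFields.ramIdx E =
        ‖PadicFields.uniformizer F‖ ^ PadicFields.ramIdx F := by
      rw [← PadicFields.norm_q_eq, ← PadicFields.norm_q_eq, PadicFields.norm_q, PadicFields.norm_q]
    rw [he] at h1
    exact (pow_left_inj₀ (norm_nonneg _) (norm_nonneg _) (PadicFields.ramIdx_pos F).ne').1 h1
  exact ⟨((PadicFields.uniformizer F) ^ m : F), ((PadicFields.uniformizer F) ^ m : F).2, by
    rw [hm, hunif, ← PadicFields.norm_def, norm_zpow]⟩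

/-- At an auxiliary prime a trivial pairing forces `X` to be unramified. -/
theorem eq_zero_of_pairing_eq_one (hv : (v : ℕ) ≠ 2) (hX : IsKummer T Pv X t)
    (hY : IsKummer T Pv Y s) (hYmul : ∀ σ τ i, Y (σ * τ) i =
      Y σ i + Y τ ((lperm T Pv σ).symm i)) {r : Fin 3}
    (hr : ∀ τ : LocalGal v, lperm T Pv τ r = r)
    (hperm : ∀ τ ∈ localInertia v, lperm T Pv τ = 1) (hYu : ∀ τ ∈ localInertia v, Y τ = 0)
    (hfrob : ∃ τ, lperm T Pv τ ≠ 1 ∧ Y τ r ≠ 0)
    (hpair : pairing T Pv (fun i => t i ^ 2) (fun i => s i ^ 2) = 1) :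
    ∀ τ ∈ localInertia v, X τ = 0 := by
  obtain ⟨τ₀, hτ₀, hYr⟩ := hfrob
  obtain ⟨j, l, hjr, hlr, hjl, hall, hcase⟩ :=
    pairing_fixed_cases hr (fun i => t i ^ 2) (fun i => s i ^ 2)
  have hswap : ∃ τ, lperm T Pv τ j = l ∧ lperm T Pv τ l = j := by
    rcases hcase with ⟨hfix, -⟩ | ⟨h, -⟩
    · exact absurd (Equiv.ext (hfix τ₀)) hτ₀
    · exact h
  have hp : hs (fld T Pv r) (t r ^ 2) (s r ^ 2) * hs (fld T Pv j) (t j ^ 2) (s j ^ 2) = 1 := by
    rcases hcase with ⟨hfix, -⟩ | ⟨-, h⟩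
    · exact absurd (Equiv.ext (hfix τ₀)) hτ₀
    · exact h ▸ hpair
  have hτ₀' : lperm T Pv τ₀ j = l ∧ lperm T Pv τ₀ l = j := by
    have hne : ∀ {m : Fin 3}, m ≠ r → lperm T Pv τ₀ m ≠ r := fun hm h =>
      hm ((lperm T Pv τ₀).injective (h.trans (hr τ₀).symm))
    rcases (hall (lperm T Pv τ₀ j)).resolve_left (hne hjr) with h1 | h1 <;>
      rcases (hall (lperm T Pv τ₀ l)).resolve_left (hne hlr) with h2 | h2
    · exact absurd ((lperm T Pv τ₀).injective (h1.trans h2.symm)) hjl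
    · refine absurd (Equiv.ext fun i => ?_) hτ₀
      rcases hall i with rfl | rfl | rfl
      · exact hr τ₀
      · exact h1
      · exact h2
    · exact ⟨h1, h2⟩
    · exact absurd ((lperm T Pv τ₀).injective (h1.trans h2.symm)) hjl
  have hpi : ∀ i, ∀ τ ∈ localInertia v, lperm T Pv τ i = i := fun i τ hτ => by
    rw [hperm τ hτ]; rfl
  have hYsqrt : ∀ i, UnrSqrt (fld T Pv i) (s i ^ 2) := fun i =>
    unrSqrt_of_vanishes hY fun τ hτ _ => by rw [hYu τ hτ]; rfl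
  -- the fixed component has even valuation
  obtain ⟨c, hc, hcn⟩ := exists_norm_eq_bot_of_inertia (hpi j) (hX.isLocalFam.mem_fld j)
    (pow_ne_zero 2 (hX.ne_zero j))
  have hnl : ‖t l ^ 2‖ = ‖t j ^ 2‖ := by
    have h : τ₀ (t j ^ 2) = t (lperm T Pv τ₀ j) ^ 2 := hX.isLocalFam τ₀ j
    rw [hτ₀'.1] at h
    rw [← h, norm_algEquiv]
  have her : EvenVal (fld T Pv r) (t r ^ 2) := by
    refine ⟨(∏ i, t i) / c,
      div_mem ((bot_le : ⊥ ≤ fld T Pv r) hX.prod_mem_bot) ((bot_le : ⊥ ≤ fld T Pv r) hc), ?_⟩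
    have hu : (Finset.univ : Finset (Fin 3)) = {r, j, l} :=
      (Finset.eq_univ_of_forall fun i => by simpa using hall i).symm
    have h0 : ‖t j ^ 2‖ ≠ 0 := norm_ne_zero_iff.2 (pow_ne_zero 2 (hX.ne_zero j))
    rw [norm_div, div_pow, ← hcn, ← norm_pow, hu,
      Finset.prod_insert (by simp [hjr.symm, hlr.symm]), Finset.prod_pair hjl, mul_pow, mul_pow,
      norm_mul, norm_mul, hnl, eq_div_iff (pow_ne_zero 2 h0)]
    ring
  have hr1 : hs (fld T Pv r) (t r ^ 2) (s r ^ 2) = 1 :=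
    hs_eq_one_of_evenVal (hX.isLocalFam.mem_fld r) (hY.isLocalFam.mem_fld r)
      (pow_ne_zero 2 (hX.ne_zero r)) (pow_ne_zero 2 (hY.ne_zero r)) (hYsqrt r) her
  rw [hr1, one_mul] at hp
  -- the component of `Y` at `j` is not a square
  have hns : ¬ IsSquareIn (fld T Pv j) (s j ^ 2) := by
    rintro ⟨w, hw, hw2⟩
    have hsq : s j ∈ fld T Pv j := by
      rcases sq_eq_sq_iff_eq_or_eq_neg.1 hw2 with rfl | rfl
      · exact hw
      · simpa using neg_mem hw
    have hfixj : lperm T Pv (τ₀ * τ₀) j = j := by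
      rw [lperm_mul_apply, hτ₀'.1, hτ₀'.2]
    have h := apply_eq_self_of_mem_fld hsq hfixj
    rw [hY.apply_fixed hfixj, hYmul, (Equiv.symm_apply_eq (lperm T Pv τ₀)).2 hτ₀'.2.symm] at h
    have hsum : Y τ₀ j + Y τ₀ l = Y τ₀ r := by
      have hu : (Finset.univ : Finset (Fin 3)) = {r, j, l} :=
        (Finset.eq_univ_of_forall fun i => by simpa using hall i).symm
      have hs' := hY.sum_eq_zero τ₀
      rw [hu, Finset.sum_insert (by simp [hjr.symm, hlr.symm]), Finset.sum_pair hjl] at hs'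
      revert hs'
      generalize Y τ₀ r = a
      generalize Y τ₀ j = b
      generalize Y τ₀ l = d
      revert a b d
      decide
    rw [hsum, sgn_of_ne_zero hYr, neg_one_mul] at h
    exact hY.ne_zero j (neg_eq_self.1 h)
  have hej : EvenVal (fld T Pv j) (t j ^ 2) := by
    by_contra hne
    rw [hs_eq_neg_one_of_not_evenVal (hY.isLocalFam.mem_fld j) (pow_ne_zero 2 (hX.ne_zero j))
      hns (hYsqrt j) hne] at hp
    exact absurd hp (by decide)
  have hel : EvenVal (fld T Pv l) (t l ^ 2) := by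
    obtain ⟨e, he, hen⟩ := hej
    refine ⟨τ₀ e, mem_fld_of_fixed fun σ hσ => ?_, by rw [norm_algEquiv, hnl, hen]⟩
    have h1 : lperm T Pv (τ₀⁻¹ * σ * τ₀) j = j := by
      rw [lperm_mul_apply, lperm_mul_apply, hτ₀'.1, hσ, ← hτ₀'.1, lperm_inv_apply]
    have h2 := congrArg τ₀ (apply_eq_self_of_mem_fld he h1)
    rwa [← AlgEquiv.mul_apply, ← mul_assoc, ← mul_assoc, mul_inv_cancel, one_mul,
      AlgEquiv.mul_apply] at h2
  intro τ hτ
  funext i
  have hi : UnrSqrt (fld T Pv i) (t i ^ 2) := by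
    refine unrSqrt_of_evenVal hv (hX.isLocalFam.mem_fld i) (pow_ne_zero 2 (hX.ne_zero i)) ?_
    rcases hall i with rfl | rfl | rfl
    · exact her
    · exact hej
    · exact hel
  obtain ⟨w, hw, hfix⟩ := hi
  have hτw := hfix τ hτ fun y hy => apply_eq_self_of_mem_fld hy (hpi i τ hτ)
  have hti : τ (t i) = t i := by
    rcases sq_eq_sq_iff_eq_or_eq_neg.1 hw with rfl | rfl
    · exact hτw
    · rw [map_neg, neg_inj] at hτw; exact hτw
  rw [hX.apply_fixed (hpi i τ hτ)] at hti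
  by_contra hne
  rw [sgn_of_ne_zero hne, neg_one_mul] at hti
  exact hX.ne_zero i (neg_eq_self.1 hti)

end Padic

end Fermat.Agent.TwoAdic.Selmer

end
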