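import Fermat.Agent.TwoAdic.Selmer.Defs
import Fermat.Agent.TwoAdic.Selmer.Finiteness
import Fermat.Agent.TwoAdic.Selmer.Kummer
import Fermat.Agent.TwoAdic.Selmer.LocalConditions

/-!
# Reciprocity for `H¹(ℚ, V) × H¹(ℚ, V) → μ₂`

Owner: helper38.  The global pairing is computed with Hilbert symbols of the cubic field; its
product formula is reduced to quadratic reciprocity over `ℚ`.
-/

set_option autoImplicit false

noncomputable section

namespace Fermat.Agent.TwoAdic.Selmer

open Fermat.Agent.TwoAdic.Symbol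
open Fermat.Agent.ClassField.Idele

local notation "ℚ̄" => AlgebraicClosure ℚ
local notation "Γℚ" => (AlgebraicClosure ℚ ≃ₐ[ℚ] AlgebraicClosure ℚ)

lemma isKummer_emb {k K : Type*} [Field k] [Field K] [Algebra k K] (P : Place k K)
    {T : CubicRoots} {x : Γℚ → Fin 3 → ZMod 2} (hx : T.IsCocycle x) {s : Fin 3 → ℚ̄}
    (hs0 : ∀ i, s i ≠ 0)
    (hs : ∀ (τ : Γℚ) i, τ (s i) = sgn (x τ (T.perm τ i)) * s (T.perm τ i)) :
    IsKummer T P (fun τ => x (P.glob τ)) (P.emb ∘ s) where
  ne_zero i := (map_ne_zero P.emb).2 (hs0 i)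
  sum_eq_zero τ := hx.sum_eq_zero _
  apply_root τ i := by
    simp only [Function.comp]
    rw [← P.emb_glob, hs, map_mul, show lperm T P τ i = T.perm (P.glob τ) i from rfl]
    congr 1
    rw [sgn, sgn]
    split_ifs <;> simp

lemma isFam_kummer {T : CubicRoots} {x : Γℚ → Fin 3 → ZMod 2} {s : Fin 3 → ℚ̄}
    (hs : ∀ (τ : Γℚ) i, τ (s i) = sgn (x τ (T.perm τ i)) * s (T.perm τ i)) :
    IsFam T fun i => s i ^ 2 := fun τ i => by
  rw [map_pow, hs, mul_pow, sgn_sq, one_mul]

lemma pairingAt_sq {k K : Type*} [Field k] [Field K] [Algebra k K] (P : Place k K)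
    (T : CubicRoots) (s s' : Fin 3 → ℚ̄) :
    pairingAt T P (fun i => s i ^ 2) (fun i => s' i ^ 2) =
      pairing T P (fun i => (P.emb ∘ s) i ^ 2) (fun i => (P.emb ∘ s') i ^ 2) := by
  rw [pairingAt, show (P.emb ∘ fun i => s i ^ 2) = fun i => (P.emb ∘ s) i ^ 2 from
    funext fun i => map_pow P.emb (s i) 2,
    show (P.emb ∘ fun i => s' i ^ 2) = fun i => (P.emb ∘ s') i ^ 2 from
    funext fun i => map_pow P.emb (s' i) 2]

/-- If `x` and `φ` satisfy the same (isotropic) conditions everywhere but at the auxiliary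
prime `q`, then `x` is unramified at `q`. -/
theorem CubicRoots.unramifiedAt_of_isAuxiliary (T : CubicRoots) {x φ : Γℚ → Fin 3 → ZMod 2}
    (hx : T.IsCocycle x) (hφ : T.IsCocycle φ) {q : Nat.Primes} {r : Fin 3}
    (hq : T.IsAuxiliary q r φ)
    (hloc : ∀ v : Nat.Primes, v ≠ q → T.SameConditionAt v x φ)
    (hxinf : T.TrivialAtInfinity x) (hφinf : T.TrivialAtInfinity φ) :
    UnramifiedAt q x := by
  classical
  obtain ⟨s, hs0, hs, -⟩ := hx.exists_kummer
  obtain ⟨s', hs'0, hs', -⟩ := hφ.exists_kummer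
  have h2 : ∀ i, s i ^ 2 ≠ 0 := fun i => pow_ne_zero 2 (hs0 i)
  have h2' : ∀ i, s' i ^ 2 ≠ 0 := fun i => pow_ne_zero 2 (hs'0 i)
  obtain ⟨S, hS⟩ := recipL (isFam_kummer hs) (isFam_kummer hs') h2 h2'
  have hinf : pairingAt T infPl (fun i => s i ^ 2) (fun i => s' i ^ 2) = 1 := by
    rw [pairingAt_sq]
    refine pairing_eq_one_of_trivial (isKummer_emb infPl hx hs0 hs) fun τ i hi => ?_
    rcases Complex.real_algHom_eq_id_or_conj τ.toAlgHom with h | h
    · have : τ = 1 := AlgEquiv.ext fun z => DFunLike.congr_fun h z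
      subst this
      have h1 := hx.map_mul 1 1
      rw [one_mul] at h1
      have h0 : x 1 = 0 := by
        have e : T.act 1 (x 1) = x 1 := by
          funext m; rw [CubicRoots.act, map_one]; rfl
        rw [e] at h1
        exact left_eq_add.mp h1
      simp [h0]
    · have : τ = Complex.conjAe := AlgEquiv.ext fun z => DFunLike.congr_fun h z
      subst this
      show x (infPl.glob Complex.conjAe) i = 0
      have hi' : T.perm (infPl.glob Complex.conjAe) i = i := hi
      rw [complexConjugation_eq_glob_conj] at hi' ⊢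
      exact hxinf i hi'
  have hv : ∀ v : Nat.Primes, v ≠ q →
      pairingAt T (padicPl v) (fun i => s i ^ 2) (fun i => s' i ^ 2) = 1 := by
    intro v hvq
    rw [pairingAt_sq]
    have hX := isKummer_emb (padicPl v) hx hs0 hs
    have hY := isKummer_emb (padicPl v) hφ hs'0 hs'
    rcases hloc v hvq with ⟨r', ⟨h1, h2⟩, -, h3⟩ |
      ⟨r', hperm, ⟨h1, h2, h4⟩, -, h3, h5⟩ | ⟨-, h1, h2⟩
    · exact pairing_eq_one_of_line hX hY h1 h2 h3
    · exact pairing_eq_one_of_peu hX hY h1 hperm h2 h3 h4 h5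
    · exact pairing_eq_one_of_unramified hX hY h1 h2
  have hprod := hS (insert q S) (Finset.subset_insert q S)
  rw [hinf, one_mul, Finset.prod_eq_single q (fun v _ hvq => hv v hvq)
    (fun h => absurd (Finset.mem_insert_self q S) h), pairingAt_sq] at hprod
  obtain ⟨τ, hτ, hτr⟩ := hq.exists_frob
  exact eq_zero_of_pairing_eq_one hq.odd (isKummer_emb (padicPl q) hx hs0 hs)
    (isKummer_emb (padicPl q) hφ hs'0 hs')
    (fun σ τ i => by
      show φ (toGlobal q (σ * τ)) i = _
      rw [show toGlobal q (σ * τ) = toGlobal q σ * toGlobal q τ from map_mul _ σ τ, hφ.map_mul]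
      rfl)
    hq.fixed hq.inertia hq.unramified ⟨τ, hτ, hτr⟩ hprod

/-- Cocycles unramified outside a finite set take values in finitely many ways: there is a finite
Galois level through which all of them factor. -/
theorem CubicRoots.finite_unramifiedOutside (T : CubicRoots) (S : Finset Nat.Primes) :
    {x : Γℚ → Fin 3 → ZMod 2 | T.IsCocycle x ∧
      ∀ v : Nat.Primes, v ∉ S → ∀ A : ValuationSubring ℚ̄, A.LiesOverPrime (v : ℕ) →
        ∀ σ ∈ A.inertiaSubgroupIn ℚ, x σ = 0}.Finite :=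
  T.finite_cocycles_unramified S

end Fermat.Agent.TwoAdic.Selmer

end
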