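import Fermat.Agent.TwoAdic.Killing
import Fermat.Agent.TwoAdic.Selmer.Decomposition
import Fermat.Agent.TwoAdic.Selmer.Reciprocity
import Fermat.Agent.Galois.Frobenius

/-!
# The Selmer group of `E[2]` and the Ramakrishna primes killing it

`SelData` records the bad primes with their lines; `sel D Q` is the Selmer group with the extra
line conditions at `Q`.  `exists_killing_primes` gives, for every level `n`, at most
`dim (sel D ∅)` Ramakrishna primes after which every class is a coboundary.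
-/

set_option autoImplicit false

noncomputable section

open scoped Pointwise
open Matrix

namespace Fermat.Agent.TwoAdic.Selmer

open Fermat.Agent.ClassField.Idele

local notation "ℚ̄" => AlgebraicClosure ℚ
local notation "Γℚ" => (AlgebraicClosure ℚ ≃ₐ[ℚ] AlgebraicClosure ℚ)

variable {T : CubicRoots}

lemma act_add (g : Γℚ) (u v : Fin 3 → ZMod 2) : T.act g (u + v) = T.act g u + T.act g v := rfl

lemma act_one (v : Fin 3 → ZMod 2) : T.act 1 v = v := by
  funext i
  simp [CubicRoots.act, Equiv.Perm.one_def]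

lemma act_mul (g h : Γℚ) (v : Fin 3 → ZMod 2) : T.act (g * h) v = T.act g (T.act h v) := by
  funext i
  simp [CubicRoots.act, map_mul, Equiv.Perm.mul_def]

lemma sgn_add {R : Type*} [Ring R] (a b : ZMod 2) : (sgn (a + b) : R) = sgn a * sgn b := by
  rcases eq_zero_or_one_zmod2 a with rfl | rfl <;> rcases eq_zero_or_one_zmod2 b with rfl | rfl <;>
    simp [sgn, show (1 : ZMod 2) + 1 = 0 from by decide]

/-- The bad primes and their lines. -/
structure SelData (T : CubicRoots) where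
  lineSet : Finset Nat.Primes
  peuSet : Finset Nat.Primes
  root : Nat.Primes → Fin 3
  root_fixed : ∀ v ∈ lineSet ∪ peuSet, ∀ τ : LocalGal v, T.perm (toGlobal v τ) (root v) = root v
  peu_inertia : ∀ v ∈ peuSet, ∀ τ ∈ localInertia v, T.perm (toGlobal v τ) = 1
  two_mem : ∀ v : Nat.Primes, (v : ℕ) = 2 → v ∈ lineSet ∪ peuSet

/-- The condition of membership in the Selmer group. -/
structure SelData.Mem (D : SelData T) (Q : Finset Nat.Primes) (x : Γℚ → Fin 3 → ZMod 2) : Prop where
  cocycle : T.IsCocycle x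
  infinity : T.TrivialAtInfinity x
  line : ∀ v ∈ D.lineSet, T.LineAt v (D.root v) x
  peu : ∀ v ∈ D.peuSet, v ∉ D.lineSet → T.PeuAt v (D.root v) x
  aux : ∀ v ∈ Q, ∀ r, (∀ τ : LocalGal v, T.perm (toGlobal v τ) r = r) →
    ∀ τ : LocalGal v, x (toGlobal v τ) r = 0
  unramified : ∀ v, v ∉ D.lineSet → v ∉ D.peuSet → v ∉ Q →
    ∀ A : ValuationSubring ℚ̄, A.LiesOverPrime (v : ℕ) → ∀ σ ∈ A.inertiaSubgroupIn ℚ, x σ = 0

/-- The Selmer group. -/
def SelData.sel (D : SelData T) (Q : Finset Nat.Primes) :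
    Submodule (ZMod 2) (Γℚ → Fin 3 → ZMod 2) where
  carrier := {x | D.Mem Q x}
  zero_mem' := {
    cocycle := ⟨fun σ => by simp, fun σ τ => by funext i; simp [CubicRoots.act],
      ⟨⊥, inferInstance, fun _ _ => rfl⟩⟩
    infinity := fun i _ => rfl
    line := fun v hv => ⟨D.root_fixed v (Finset.mem_union_left _ hv), fun _ => rfl⟩
    peu := fun v hv _ => ⟨D.root_fixed v (Finset.mem_union_right _ hv), fun _ _ => rfl,
      ⟨1, 1, by simp, by simp, fun τ _ j _ => by simp [sgn]⟩⟩
    aux := fun _ _ _ _ _ => rfl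
    unramified := fun _ _ _ _ _ _ _ _ => rfl }
  add_mem' := fun {x y} hx hy => {
    cocycle := ⟨fun σ => by
        simp only [Pi.add_apply, Finset.sum_add_distrib, hx.cocycle.sum_eq_zero σ,
          hy.cocycle.sum_eq_zero σ, add_zero],
      fun σ τ => by
        simp only [Pi.add_apply, hx.cocycle.map_mul, hy.cocycle.map_mul, act_add]
        abel, by
      obtain ⟨L, hL, hx'⟩ := hx.cocycle.cont
      obtain ⟨M, hM, hy'⟩ := hy.cocycle.cont
      refine ⟨L ⊔ M, inferInstance, fun σ hσ => ?_⟩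
      rw [Pi.add_apply, hx' σ fun z hz => hσ z (SetLike.le_def.mp le_sup_left hz),
        hy' σ fun z hz => hσ z (SetLike.le_def.mp le_sup_right hz), add_zero]⟩
    infinity := fun i hi => by simp [hx.infinity i hi, hy.infinity i hi]
    line := fun v hv => ⟨(hx.line v hv).1, fun τ => by
      simp [(hx.line v hv).2 τ, (hy.line v hv).2 τ]⟩
    peu := fun v hv hv' => by
      obtain ⟨hr, hx0, u, s, hu, hs, hxs⟩ := hx.peu v hv hv'
      obtain ⟨-, hy0, u', s', hu', hs', hys⟩ := hy.peu v hv hv'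
      refine ⟨hr, fun τ hτ => by simp [hx0 τ hτ, hy0 τ hτ], u * u', s * s',
        by rw [norm_mul, hu, hu', one_mul], by rw [mul_pow, hs, hs', map_mul], fun τ hτ j hj => ?_⟩
      rw [map_mul, hxs τ hτ j hj, hys τ hτ j hj, Pi.add_apply, Pi.add_apply, sgn_add]
      ring
    aux := fun v hv r hr τ => by simp [hx.aux v hv r hr τ, hy.aux v hv r hr τ]
    unramified := fun v h1 h2 h3 A hA σ hσ => by
      simp [hx.unramified v h1 h2 h3 A hA σ hσ, hy.unramified v h1 h2 h3 A hA σ hσ] }
  smul_mem' := fun a x hx => by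
    rcases eq_zero_or_one_zmod2 a with rfl | rfl
    · rw [zero_smul]
      exact {
        cocycle := ⟨fun σ => by simp, fun σ τ => by funext i; simp [CubicRoots.act],
          ⟨⊥, inferInstance, fun _ _ => rfl⟩⟩
        infinity := fun i _ => rfl
        line := fun v hv => ⟨D.root_fixed v (Finset.mem_union_left _ hv), fun _ => rfl⟩
        peu := fun v hv _ => ⟨D.root_fixed v (Finset.mem_union_right _ hv), fun _ _ => rfl,
          ⟨1, 1, by simp, by simp, fun τ _ j _ => by simp [sgn]⟩⟩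
        aux := fun _ _ _ _ _ => rfl
        unramified := fun _ _ _ _ _ _ _ _ => rfl }
    · rw [one_smul]; exact hx

lemma SelData.mem_sel {D : SelData T} {Q : Finset Nat.Primes} {x : Γℚ → Fin 3 → ZMod 2} :
    x ∈ D.sel Q ↔ D.Mem Q x := Iff.rfl

/-- `V2` inside `Fin 3 → ZMod 2`: the root `r` corresponds to the nonzero vector killed at `r`. -/
def toSum : V2 →ₗ[ZMod 2] (Fin 3 → ZMod 2) where
  toFun v := ![v 1, v 0, v 0 + v 1]
  map_add' u v := by funext i; fin_cases i <;> simp <;> ring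
  map_smul' a v := by funext i; fin_cases i <;> simp <;> ring

/-- The inverse of `toSum` on sum-zero functions. -/
def ofSum : (Fin 3 → ZMod 2) →ₗ[ZMod 2] V2 where
  toFun w := ![w 1, w 0]
  map_add' u v := by funext i; fin_cases i <;> simp
  map_smul' a v := by funext i; fin_cases i <;> simp

lemma ofSum_toSum (v : V2) : ofSum (toSum v) = v := by
  funext i; fin_cases i <;> simp [ofSum, toSum]

lemma toSum_ofSum {w : Fin 3 → ZMod 2} (hw : ∑ i, w i = 0) : toSum (ofSum w) = w := by
  have h : w 1 + w 0 = w 2 := by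
    rw [Fin.sum_univ_three] at hw
    have e := eq_neg_of_add_eq_zero_left hw
    rw [ZMod.neg_eq_self_mod_two] at e
    rw [add_comm, e]
  funext i; fin_cases i <;> simp [ofSum, toSum, h]

lemma sum_toSum (v : V2) : ∑ i, toSum v i = 0 := by
  revert v
  intro v
  simp [toSum, Fin.sum_univ_three]
  generalize v 0 = a; generalize v 1 = b
  revert a b; decide

lemma perm_eq_one_of_fix : ∀ s : Equiv.Perm (Fin 3),
    (∀ i : Fin 3, s.symm i = i) → s = 1 := fun s h => Equiv.ext fun i => by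
  have := h (s i)
  rw [Equiv.symm_apply_apply] at this
  simpa using this.symm

/-- A sum-zero function is fixed by a transposition exactly when it vanishes at the fixed point. -/
lemma act_fixed_iff_aux : ∀ (s : Equiv.Perm (Fin 3)) (r : Fin 3) (a b : ZMod 2), s ≠ 1 → s r = r →
    ((∀ i : Fin 3, ![a, b, a + b] (s.symm i) = ![a, b, a + b] i) ↔ ![a, b, a + b] r = 0) := by
  decide

lemma act_fixed_iff {g : Γℚ} {r : Fin 3} (hg : T.perm g ≠ 1) (hr : T.perm g r = r)
    {w : Fin 3 → ZMod 2} (hw : ∑ i, w i = 0) : T.act g w = w ↔ w r = 0 := by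
  have h : w = ![w 0, w 1, w 0 + w 1] := by
    conv_lhs => rw [← toSum_ofSum hw]
    funext i; fin_cases i <;> simp [toSum, ofSum, add_comm]
  have h' := act_fixed_iff_aux (T.perm g) r (w 0) (w 1) hg hr
  rw [← h] at h'
  rw [← h', funext_iff]
  rfl

/-- The transpositions commuting with a transposition fix its fixed point. -/
lemma fix_of_commute_aux : ∀ s t : Equiv.Perm (Fin 3), ∀ r : Fin 3,
    s ≠ 1 → s r = r → t * s = s * t → t r = r := by
  decide

section Compat

variable {n : ℕ} {hn : n ≠ 0} {ρ : Γℚ →* GL (Fin 2) (ZMod (2 ^ n))}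
  (hcompat : ∀ g v, toSum (redMat hn ρ g *ᵥ v) = T.act g (toSum v))

include hcompat

lemma redMat_eq_one_iff (g : Γℚ) : redMat hn ρ g = 1 ↔ T.perm g = 1 := by
  constructor
  · intro h
    refine perm_eq_one_of_fix _ fun i => ?_
    by_contra hne
    have h1 : ∀ v : V2, toSum v ((T.perm g).symm i) = toSum v i := fun v => by
      have := congrFun (hcompat g v) i
      rw [h, Matrix.one_mulVec] at this
      exact this.symm
    have a := h1 ![1, 0]
    have b := h1 ![0, 1]
    generalize (T.perm g).symm i = j at hne a b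
    revert a b
    fin_cases i <;> fin_cases j <;> simp_all [toSum]
  · intro h
    have h2 : ∀ v : V2, redMat hn ρ g *ᵥ v = v := fun v => by
      have := congrArg ofSum (hcompat g v)
      rw [ofSum_toSum, show T.act g (toSum v) = toSum v by
        funext i; simp [CubicRoots.act, h, Equiv.Perm.one_def], ofSum_toSum] at this
      exact this
    ext i j
    have := congrFun (h2 (Pi.single j 1)) i
    rw [Matrix.mulVec_single_one] at this
    simpa [Matrix.one_apply, Pi.single_apply] using this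

lemma ofSum_act (g : Γℚ) {w : Fin 3 → ZMod 2} (hw : ∑ i, w i = 0) :
    ofSum (T.act g w) = redMat hn ρ g *ᵥ ofSum w := by
  conv_lhs => rw [← toSum_ofSum hw, ← hcompat, ofSum_toSum]

lemma isRedCocycle_ofSum {x : Γℚ → Fin 3 → ZMod 2} (hx : T.IsCocycle x) :
    IsRedCocycle hn ρ fun g => ofSum (x g) := fun g h => by
  simp only
  rw [hx.map_mul, map_add, ofSum_act hcompat g (hx.sum_eq_zero h)]

lemma redMat_fixed_iff {x : Γℚ → Fin 3 → ZMod 2} (hx : T.IsCocycle x) {g : Γℚ} {r : Fin 3}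
    (hg : redMat hn ρ g ≠ 1) (hr : T.perm g r = r) :
    redMat hn ρ g *ᵥ ofSum (x g) = ofSum (x g) ↔ x g r = 0 := by
  rw [← act_fixed_iff (fun h => hg ((redMat_eq_one_iff hcompat g).2 h)) hr (hx.sum_eq_zero g)]
  constructor
  · intro h
    have h2 := congrArg toSum h
    rwa [hcompat, toSum_ofSum (hx.sum_eq_zero g)] at h2
  · intro h
    rw [← ofSum_act hcompat g (hx.sum_eq_zero g), h]

end Compat

section CocycleConj

variable {n : ℕ} {hn : n ≠ 0} {G : Type*} [Group G] {π : G →* GL (Fin 2) (ZMod (2 ^ n))}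
  {φ : G → V2}

lemma fixed_conj_of_fixed (hφ : IsRedCocycle hn π φ) {s a : G}
    (hs : redMat hn π s * redMat hn π s = 1) (h : redMat hn π s *ᵥ φ s = φ s) :
    redMat hn π (a * s * a⁻¹) *ᵥ φ (a * s * a⁻¹) = φ (a * s * a⁻¹) := by
  set A := redMat hn π a
  set A' := redMat hn π a⁻¹
  set S := redMat hn π s
  have hA : A' * A = 1 := by rw [← redMat_mul, inv_mul_cancel, redMat_one]
  have h0 : φ a + A *ᵥ φ a⁻¹ = 0 := by rw [← hφ, mul_inv_cancel, hφ.map_one]
  rw [hφ (a * s), hφ a s, redMat_mul, redMat_mul, eq_neg_of_add_eq_zero_left h0]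
  simp only [Matrix.mulVec_add, Matrix.mulVec_neg, Matrix.mulVec_mulVec]
  rw [show A * S * A' * A = A * S by rw [mul_assoc, hA, mul_one],
    show A * S * A' * (A * S) = A by
      rw [← mul_assoc (A * S * A'), show A * S * A' * A = A * S by rw [mul_assoc, hA, mul_one],
        mul_assoc, hs, mul_one],
    ← Matrix.mulVec_mulVec (φ s) A S, h]
  have hneg : ∀ w : V2, -w = w := fun w => funext fun i => ZMod.neg_eq_self_mod_two _
  simp only [hneg]
  abel

lemma fixed_conj_iff (hφ : IsRedCocycle hn π φ) {s : G} (a : G)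
    (hs : redMat hn π s * redMat hn π s = 1) :
    redMat hn π (a * s * a⁻¹) *ᵥ φ (a * s * a⁻¹) = φ (a * s * a⁻¹) ↔
      redMat hn π s *ᵥ φ s = φ s := by
  refine ⟨fun h => ?_, fixed_conj_of_fixed hφ hs⟩
  have hs' : redMat hn π (a * s * a⁻¹) * redMat hn π (a * s * a⁻¹) = 1 := by
    rw [← redMat_mul, show a * s * a⁻¹ * (a * s * a⁻¹) = a * (s * s) * a⁻¹ by group, redMat_mul,
      redMat_mul, redMat_mul, hs, mul_one, ← redMat_mul, mul_inv_cancel, redMat_one]
  have h2 := fixed_conj_of_fixed hφ (a := a⁻¹) hs' h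
  rwa [show a⁻¹ * (a * s * a⁻¹) * a⁻¹⁻¹ = s by group] at h2

end CocycleConj

/-- A cocycle vanishing on inertia at one place over `v`, where inertia acts trivially, vanishes
on inertia at all of them. -/
lemma eq_zero_of_unramifiedAt {v : Nat.Primes} {x : Γℚ → Fin 3 → ZMod 2} (hx : T.IsCocycle x)
    (hperm : ∀ τ ∈ localInertia v, T.perm (toGlobal v τ) = 1) (hv : UnramifiedAt v x)
    (A : ValuationSubring ℚ̄) (hA : A.LiesOverPrime (v : ℕ)) (σ : Γℚ)
    (hσ : σ ∈ A.inertiaSubgroupIn ℚ) : x σ = 0 := by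
  obtain ⟨e, rfl⟩ := Density.exists_smul_eq v.2 (liesOverPrime_padicPlace v) hA
  obtain ⟨τ, hτ, hτs⟩ := exists_localInertia_eq v (Density.conj_inv_mem_inertiaSubgroupIn hσ)
  have h1 : x (e⁻¹ * σ * e) = 0 := hτs ▸ hv τ hτ
  have h2 : T.act (e⁻¹ * σ * e) (x e⁻¹) = x e⁻¹ := by
    funext i
    simp [CubicRoots.act, ← hτs, hperm τ hτ, Equiv.Perm.one_def]
  have he : x 1 = 0 := by
    have h := hx.map_mul 1 1
    rw [one_mul, act_one] at h
    exact left_eq_add.mp h
  have h3 : x σ = x e + T.act e (x e⁻¹) := by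
    have h := hx.map_mul (e * (e⁻¹ * σ * e)) e⁻¹
    rw [show e * (e⁻¹ * σ * e) * e⁻¹ = σ by group, hx.map_mul e (e⁻¹ * σ * e), h1, act_mul, h2,
      show T.act e (0 : Fin 3 → ZMod 2) = 0 from rfl, add_zero] at h
    exact h
  rw [h3, ← hx.map_mul, mul_inv_cancel, he]

variable (D : SelData T) {n : ℕ} {hn : n ≠ 0} {ρ : Γℚ →* GL (Fin 2) (ZMod (2 ^ n))}

lemma redMat_congr {g h : Γℚ} (e : ρ g = ρ h) : redMat hn ρ g = redMat hn ρ h := by
  rw [redMat, redMat, e]

lemma involution_conj {c : Γℚ} (hc : ρ c * ρ c = 1) (hc1 : redMat hn ρ c ≠ 1) {g a : Γℚ}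
    (h : ρ g = ρ (a * c * a⁻¹)) :
    redMat hn ρ g * redMat hn ρ g = 1 ∧ redMat hn ρ g ≠ 1 := by
  have hc2 : redMat hn ρ c * redMat hn ρ c = 1 := by
    rw [← redMat_mul, redMat, map_mul, hc, _root_.map_one, Units.val_one]
  rw [redMat_congr h]
  constructor
  · rw [← redMat_mul, show a * c * a⁻¹ * (a * c * a⁻¹) = a * (c * c) * a⁻¹ by group, redMat_mul,
      redMat_mul, redMat_mul, hc2, mul_one, ← redMat_mul, mul_inv_cancel, redMat_one]
  · intro h1
    refine hc1 ?_
    rw [show c = a⁻¹ * (a * c * a⁻¹) * a by group, redMat_mul, redMat_mul, h1, mul_one,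
      ← redMat_mul, inv_mul_cancel, redMat_one]

/-- At a Ramakrishna prime the decomposition group fixes the root fixed by Frobenius. -/
lemma exists_root_fixed (hcompat : ∀ g v, toSum (redMat hn ρ g *ᵥ v) = T.act g (toSum v))
    {c : Γℚ} (hc : ρ c * ρ c = 1) (hc1 : redMat hn ρ c ≠ 1) {v : Nat.Primes}
    (hv : IsRamakrishna ρ c (v : ℕ)) :
    ∃ r, ∀ τ : LocalGal v, T.perm (toGlobal v τ) r = r := by
  obtain ⟨σ, hσ⟩ := Galois.exists_isFrobeniusAt (padicPlace (v : ℕ)) v.2 (liesOverPrime_padicPlace v)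
  obtain ⟨hI, hF⟩ := hv.2 _ (liesOverPrime_padicPlace v)
  obtain ⟨a, ha⟩ := hF σ hσ
  obtain ⟨h2, hne⟩ := involution_conj hc hc1 ha
  have hperm2 : T.perm σ * T.perm σ = 1 := by
    rw [← map_mul]
    exact (redMat_eq_one_iff hcompat _).1 (by rw [redMat_mul, h2])
  have hperm : T.perm σ ≠ 1 := fun h => hne ((redMat_eq_one_iff hcompat σ).2 h)
  obtain ⟨r, hr⟩ : ∃ r, T.perm σ r = r := by
    revert hperm2
    generalize T.perm σ = s
    revert s
    decide
  refine ⟨r, fun τ => fix_of_commute_aux _ _ r hperm hr ?_⟩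
  set d := toGlobal v τ
  have hd : d ∈ (padicPlace (v : ℕ)).decompositionSubgroup ℚ :=
    localGaloisToGlobal_mem_decompositionSubgroup (v : ℕ) τ
  have hσ' : (padicPlace (v : ℕ)).IsFrobeniusAt (d * σ * d⁻¹) (v : ℕ) := by
    have h := Density.isFrobeniusAt_conj hσ d
    rwa [MulAction.mem_stabilizer_iff.mp hd] at h
  have h1 : T.perm (σ⁻¹ * (d * σ * d⁻¹)) = 1 := by
    refine (redMat_eq_one_iff hcompat _).1 ?_
    rw [redMat, hI _ (Density.inv_mul_mem_inertiaSubgroupIn hσ hσ'), _root_.map_one, Units.val_one]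
  rw [map_mul, map_mul, map_mul, map_inv, map_inv, inv_mul_eq_one] at h1
  exact (eq_mul_inv_iff_mul_eq.mp h1).symm

/-- `sel D ∅` is finite. -/
theorem SelData.finiteDimensional_sel_empty : FiniteDimensional (ZMod 2) (D.sel ∅) := by
  have : Finite (D.sel ∅) := Set.Finite.to_subtype (s := {x | x ∈ D.sel ∅})
    ((T.finite_unramifiedOutside (D.lineSet ∪ D.peuSet)).subset fun x hx =>
      ⟨hx.cocycle, fun v hv => hx.unramified v (fun h => hv (Finset.mem_union_left _ h))
        (fun h => hv (Finset.mem_union_right _ h)) (Finset.notMem_empty v)⟩)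
  exact Module.Finite.of_finite

/-- The primes in a finite set of natural numbers. -/
def primesIn (Q : Finset ℕ) : Finset Nat.Primes := Q.subtype Nat.Prime

lemma mem_primesIn {Q : Finset ℕ} {v : Nat.Primes} : v ∈ primesIn Q ↔ (v : ℕ) ∈ Q :=
  Finset.mem_subtype

lemma card_primesIn_le (Q : Finset ℕ) : (primesIn Q).card ≤ Q.card :=
  (Finset.card_subtype Nat.Prime Q).trans_le (Finset.card_filter_le _ _)

/-- The bound on the number of Ramakrishna primes, independent of the level. -/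
def SelData.bound : ℕ := Module.finrank (ZMod 2) (D.sel ∅)

/-- **Killing the Selmer group of `E[2]`.** -/
theorem exists_killing_primes (hρ : HasFiniteLevel ρ)
    (hSL : ∀ M : GL (Fin 2) (ZMod (2 ^ n)), M.1.det = 1 → ∃ g, ρ g = M)
    (hcompat : ∀ g v, toSum (redMat hn ρ g *ᵥ v) = T.act g (toSum v))
    {c : Γℚ} (hc : ρ c * ρ c = 1) (hc1 : redMat hn ρ c ≠ 1)
    (hq0 : ∃ v ∈ D.lineSet, ∃ (τ : LocalGal v) (γ : GL (Fin 2) (ZMod (2 ^ n))),
      (ρ (toGlobal v τ)).1 = γ.1 * !![1, 1; 0, 1] * (γ⁻¹).1)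
    (S : Finset ℕ) :
    ∃ Q : Finset Nat.Primes, Q.card ≤ D.bound ∧
      (∀ q ∈ Q, (q : ℕ) ∉ S ∧ q ∉ D.lineSet ∧ q ∉ D.peuSet ∧ IsRamakrishna ρ c (q : ℕ)) ∧
      ∀ x ∈ D.sel Q, ∃ v : Fin 3 → ZMod 2, ∑ i, v i = 0 ∧ ∀ g, x g = T.act g v - v := by
  classical
  have := D.finiteDimensional_sel_empty
  let L : (Γℚ → Fin 3 → ZMod 2) →ₗ[ZMod 2] (Γℚ → V2) := ofSum.compLeft Γℚ
  let Sel : Finset ℕ → Submodule (ZMod 2) (Γℚ → V2) := fun Q =>
    (D.sel (primesIn Q)).map L
  have hsub0 : primesIn ∅ = (∅ : Finset Nat.Primes) :=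
    Finset.eq_empty_of_forall_notMem fun v hv => Finset.notMem_empty _ (mem_primesIn.1 hv)
  have hSel0 : Sel ∅ = (D.sel ∅).map L := by simp only [Sel, hsub0]
  have : FiniteDimensional (ZMod 2) (Sel ∅) := by rw [hSel0]; infer_instance
  let S' : Finset ℕ := S ∪ (D.lineSet ∪ D.peuSet).image (fun v : Nat.Primes => (v : ℕ))
  have hbad : ∀ v : Nat.Primes, (v : ℕ) ∉ S' →
      (v : ℕ) ∉ S ∧ v ∉ D.lineSet ∧ v ∉ D.peuSet := fun v hv => by
    simp only [S', Finset.mem_union, Finset.mem_image, not_or, not_exists, not_and] at hv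
    exact ⟨hv.1, fun h => hv.2 v (Or.inl h) rfl, fun h => hv.2 v (Or.inr h) rfl⟩
  refine Exists.elim (exists_killing_set (hn := hn) hρ hSL hc hc1 S' Sel ?_ ?_ ?_)
    fun Q hkill => ?_
  · -- cocycles of finite level
    rintro Q _ ⟨x, hx, rfl⟩
    refine ⟨isRedCocycle_ofSum hcompat hx.cocycle, ?_⟩
    obtain ⟨M, hM, hxM⟩ := hx.cocycle.cont
    refine ⟨M, hM, fun g s hs => ?_⟩
    show ofSum (x (g * s)) = ofSum (x g)
    rw [hx.cocycle.map_mul, hxM s hs, show T.act g (0 : Fin 3 → ZMod 2) = 0 from rfl, add_zero]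
  · -- the transvection at `q₀`
    rintro Q - _ ⟨x, hx, rfl⟩
    obtain ⟨v, hv, τ, γ, hγ⟩ := hq0
    refine ⟨toGlobal v τ, γ, hγ, ?_⟩
    have hne : redMat hn ρ (toGlobal v τ) ≠ 1 := by
      intro h
      set B := (redGL hn γ).1
      set B' := (redGL hn γ⁻¹).1
      have hB : B' * B = 1 := by
        rw [← Units.val_mul, ← map_mul, inv_mul_cancel, _root_.map_one, Units.val_one]
      have hT : redMat hn ρ (toGlobal v τ) = B * !![1, 1; 0, 1] * B' := by
        have hT1 : (!![1, 1; 0, 1] : Matrix (Fin 2) (Fin 2) (ZMod 2)) =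
            (!![1, 1; 0, 1] : Matrix (Fin 2) (Fin 2) (ZMod (2 ^ n))).map (redHom hn) := by
          ext i j; fin_cases i <;> fin_cases j <;> simp
        rw [redMat, coe_redGL, hγ, Matrix.map_mul, Matrix.map_mul, hT1]
        rfl
      rw [hT] at h
      have h2 := congrArg (fun M => B' * M * B) h
      simp only [mul_assoc, hB, mul_one] at h2
      rw [← mul_assoc B' B, hB, one_mul] at h2
      have h3 := congrFun (congrFun h2 0) 1
      simp at h3
    exact (redMat_fixed_iff hcompat hx.cocycle hne (D.root_fixed v (Finset.mem_union_left _ hv) τ)).2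
      ((hx.line v hv).2 τ)
  · -- reciprocity
    rintro Q q hQ hqS hqQ hram A σ hA hσ hσc ⟨_, ⟨φ, hφ, rfl⟩, -, hmove⟩ _ ⟨x, hx, rfl⟩
    let w : Nat.Primes := ⟨q, hram.1⟩
    obtain ⟨-, hwl, hwp⟩ := hbad w hqS
    have hwQ : w ∉ primesIn Q := fun h => hqQ (mem_primesIn.1 h)
    obtain ⟨e, rfl⟩ := Density.exists_smul_eq hram.1 (liesOverPrime_padicPlace w) hA
    set s := e⁻¹ * σ * e with hs_def
    have hσs : σ = e * s * e⁻¹ := by rw [hs_def]; group
    have hwf : Fact (w : ℕ).Prime := ⟨w.2⟩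
    have hs : (padicPlace (w : ℕ)).IsFrobeniusAt s q := by
      have h := Density.isFrobeniusAt_conj hσ e⁻¹
      rw [inv_smul_smul, inv_inv] at h
      exact h
    obtain ⟨τ, hτ⟩ := exists_toGlobal_eq w (Density.isFrobeniusAt_iff.1 hs).1
    have hss : ρ s = ρ (e⁻¹ * c * e⁻¹⁻¹) := by
      rw [hs_def, inv_inv, map_mul, map_mul, hσc, ← map_mul, ← map_mul]
    obtain ⟨hs2, hs1⟩ := involution_conj hc hc1 hss
    obtain ⟨r, hr⟩ := exists_root_fixed hcompat hc hc1 (v := w) hram
    have hsr : T.perm s r = r := hτ ▸ hr τ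
    have hmoveiff : ∀ y : Γℚ → Fin 3 → ZMod 2, T.IsCocycle y →
        (redMat hn ρ c *ᵥ ofSum (y σ) = ofSum (y σ) ↔ y s r = 0) := by
      intro y hy
      rw [← redMat_congr hσc, ← redMat_fixed_iff hcompat hy hs1 hsr, hσs]
      exact fixed_conj_iff (isRedCocycle_ofSum hcompat hy) e hs2
    have hinertia : ∀ t ∈ localInertia w, T.perm (toGlobal w t) = 1 := fun t ht =>
      (redMat_eq_one_iff hcompat _).1 (by
        rw [redMat, (hram.2 _ (liesOverPrime_padicPlace w)).1 _ (toGlobal_mem_inertia w ht),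
          _root_.map_one, Units.val_one])
    have hsubins : primesIn (insert q Q) = insert w (primesIn Q) := by
      ext v
      simp only [mem_primesIn, Finset.mem_insert]
      exact or_congr ⟨fun h => Subtype.ext h, fun h => congrArg Subtype.val h⟩ Iff.rfl
    rw [hsubins] at hx
    have hxr : x s r = 0 := hτ ▸ hx.aux w (Finset.mem_insert_self _ _) r hr τ
    refine ⟨Submodule.mem_map_of_mem ?_, (hmoveiff x hx.cocycle).2 hxr⟩
    have haux : T.IsAuxiliary w r φ :=
      { odd := fun h => (Finset.mem_union.1 (D.two_mem w h)).elim hwl hwp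
        fixed := hr
        inertia := hinertia
        unramified := fun t ht => hφ.unramified w hwl hwp hwQ _ (liesOverPrime_padicPlace w) _
          (toGlobal_mem_inertia w ht)
        exists_frob := ⟨τ, fun h => hs1 ((redMat_eq_one_iff hcompat s).2 (hτ ▸ h)),
          fun h => hmove ((hmoveiff φ hφ.cocycle).2 (hτ ▸ h))⟩ }
    have hloc : ∀ v : Nat.Primes, v ≠ w → T.SameConditionAt v x φ := by
      intro v hvw
      by_cases hl : v ∈ D.lineSet
      · exact Or.inl ⟨_, hx.line v hl, hφ.line v hl⟩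
      by_cases hp : v ∈ D.peuSet
      · exact Or.inr (Or.inl ⟨_, D.peu_inertia v hp, hx.peu v hp hl, hφ.peu v hp hl⟩)
      by_cases hQv : v ∈ primesIn Q
      · obtain ⟨r', hr'⟩ := exists_root_fixed hcompat hc hc1 (hQ _ (mem_primesIn.1 hQv)).2
        exact Or.inl ⟨r', ⟨hr', hx.aux v (Finset.mem_insert_of_mem hQv) r' hr'⟩,
          hr', hφ.aux v hQv r' hr'⟩
      refine Or.inr (Or.inr ⟨fun h => (Finset.mem_union.1 (D.two_mem v h)).elim hl hp, ?_, ?_⟩)
      · exact fun t ht => hx.unramified v hl hp (by simp [hvw, hQv]) _ (liesOverPrime_padicPlace v) _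
          (toGlobal_mem_inertia v ht)
      · exact fun t ht => hφ.unramified v hl hp hQv _ (liesOverPrime_padicPlace v) _
          (toGlobal_mem_inertia v ht)
    have hur := T.unramifiedAt_of_isAuxiliary hx.cocycle hφ.cocycle haux hloc hx.infinity hφ.infinity
    exact {
      cocycle := hx.cocycle
      infinity := hx.infinity
      line := hx.line
      peu := hx.peu
      aux := fun v hv => hx.aux v (Finset.mem_insert_of_mem hv)
      unramified := fun v hl hp hv => by
        by_cases hvw : v = w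
        · subst hvw
          exact eq_zero_of_unramifiedAt hx.cocycle hinertia hur
        · exact hx.unramified v hl hp (by simp [hvw, hv]) }
  · obtain ⟨hQc, hQ, hQle⟩ := hkill
    refine ⟨primesIn Q, ?_, fun q hq => ?_, fun x hx => ?_⟩
    · refine le_trans ?_ (hQc.trans ?_)
      · exact card_primesIn_le Q
      · rw [hSel0]; exact Submodule.finrank_map_le L _
    · obtain ⟨h1, h2⟩ := hQ _ (mem_primesIn.1 hq)
      obtain ⟨a, b, d⟩ := hbad q h1
      exact ⟨a, b, d, h2⟩
    · obtain ⟨v, hv⟩ := hQle (Submodule.mem_map_of_mem hx)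
      refine ⟨toSum v, sum_toSum v, fun g => ?_⟩
      have h := congrArg toSum (hv g)
      rwa [map_sub, hcompat, show L x g = ofSum (x g) from rfl,
        toSum_ofSum (hx.cocycle.sum_eq_zero g)] at h

end Fermat.Agent.TwoAdic.Selmer
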