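import Fermat.Agent.TwoAdic.Selmer.Defs
import Fermat.Agent.TwoAdic.Selmer.Killing
import Mathlib.FieldTheory.PrimitiveElement
import Mathlib.FieldTheory.Galois.Infinite

/-!
# The cubic resolvent of a mod `2` representation

The three nonzero vectors of the mod `2` module of `π` are permuted transitively when the image
contains `SL₂`; a primitive element of the fixed field of the stabiliser of one of them gives
three conjugate roots with the same action.
-/

set_option autoImplicit false

noncomputable section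

open Matrix

namespace Fermat.Agent.TwoAdic.Selmer

local notation "ℚ̄" => AlgebraicClosure ℚ
local notation "Γℚ" => (AlgebraicClosure ℚ ≃ₐ[ℚ] AlgebraicClosure ℚ)

local instance isAlgebraicQbar_ofRed : Algebra.IsAlgebraic ℚ ℚ̄ := AlgebraicClosure.isAlgebraic ℚ

local instance isAlgClosureQbar_ofRed : IsAlgClosure ℚ ℚ̄ := ⟨inferInstance, inferInstance⟩

local instance isGaloisQbar_ofRed : IsGalois ℚ ℚ̄ := IsAlgClosure.isGalois ℚ ℚ̄

/-- The nonzero vector attached to a root. -/
def rootVec : Fin 3 → V2 := ![![1, 0], ![0, 1], ![1, 1]]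

/-- The root attached to a nonzero vector. -/
def vecRoot (v : V2) : Fin 3 := if v 1 = 0 then 0 else if v 0 = 0 then 1 else 2

lemma vecRoot_rootVec : ∀ i, vecRoot (rootVec i) = i := by decide

lemma rootVec_vecRoot : ∀ v : V2, v ≠ 0 → rootVec (vecRoot v) = v := by decide

lemma rootVec_ne_zero : ∀ i, rootVec i ≠ 0 := by decide

/-- A vector as a sum zero function on the roots: it vanishes exactly at its own root. -/
def sumFun (v : V2) : Fin 3 → ZMod 2 := fun i => rootVec i 0 * v 1 + rootVec i 1 * v 0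

lemma sum_sumFun : ∀ v, ∑ i, sumFun v i = 0 := by decide

lemma sumFun_rootVec_eq_zero_iff : ∀ r i, sumFun (rootVec r) i = 0 ↔ i = r := by decide

lemma sumFun_mulVec_aux : ∀ a b c d p q r s : ZMod 2, a * d + b * c = 1 →
    (a * p + b * q) * (c * r + d * s) + (c * p + d * q) * (a * r + b * s) = p * s + q * r := by
  decide

/-- Matrices of determinant one preserve the pairing. -/
lemma pairing_mulVec (M : Matrix (Fin 2) (Fin 2) (ZMod 2)) (hM : M.det = 1) (u v : V2) :
    (M *ᵥ u) 0 * (M *ᵥ v) 1 + (M *ᵥ u) 1 * (M *ᵥ v) 0 = u 0 * v 1 + u 1 * v 0 := by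
  rw [Matrix.det_fin_two] at hM
  have hM' : M 0 0 * M 1 1 + M 0 1 * M 1 0 = 1 := by
    rw [← CharTwo.sub_eq_add]; exact hM
  simpa [Matrix.mulVec, dotProduct, Fin.sum_univ_two] using
    sumFun_mulVec_aux (M 0 0) (M 0 1) (M 1 0) (M 1 1) (u 0) (u 1) (v 0) (v 1) hM'

variable {n : ℕ} (hn : n ≠ 0) (π : Γℚ →* GL (Fin 2) (ZMod (2 ^ n)))

lemma redMat_mulVec_rootVec_ne_zero (g : Γℚ) (i : Fin 3) : redMat hn π g *ᵥ rootVec i ≠ 0 := by
  intro h
  have h2 : redMat hn π g⁻¹ *ᵥ (redMat hn π g *ᵥ rootVec i) = rootVec i := by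
    rw [Matrix.mulVec_mulVec, ← redMat_mul, inv_mul_cancel, redMat_one, Matrix.one_mulVec]
  rw [h, Matrix.mulVec_zero] at h2
  exact rootVec_ne_zero i h2.symm

/-- The permutation of the roots. -/
def rootPerm : Γℚ →* Equiv.Perm (Fin 3) :=
  MonoidHom.mk' (fun g =>
    { toFun := fun i => vecRoot (redMat hn π g *ᵥ rootVec i)
      invFun := fun i => vecRoot (redMat hn π g⁻¹ *ᵥ rootVec i)
      left_inv := fun i => by
        show vecRoot (redMat hn π g⁻¹ *ᵥ rootVec (vecRoot (redMat hn π g *ᵥ rootVec i))) = i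
        rw [rootVec_vecRoot _ (redMat_mulVec_rootVec_ne_zero hn π g i), Matrix.mulVec_mulVec,
          ← redMat_mul, inv_mul_cancel, redMat_one, Matrix.one_mulVec, vecRoot_rootVec]
      right_inv := fun i => by
        show vecRoot (redMat hn π g *ᵥ rootVec (vecRoot (redMat hn π g⁻¹ *ᵥ rootVec i))) = i
        rw [rootVec_vecRoot _ (redMat_mulVec_rootVec_ne_zero hn π g⁻¹ i), Matrix.mulVec_mulVec,
          ← redMat_mul, mul_inv_cancel, redMat_one, Matrix.one_mulVec, vecRoot_rootVec] })
    fun g h => Equiv.ext fun i => by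
      show vecRoot (redMat hn π (g * h) *ᵥ rootVec i) =
        vecRoot (redMat hn π g *ᵥ rootVec (vecRoot (redMat hn π h *ᵥ rootVec i)))
      rw [rootVec_vecRoot _ (redMat_mulVec_rootVec_ne_zero hn π h i), Matrix.mulVec_mulVec,
        ← redMat_mul]

lemma rootVec_rootPerm (g : Γℚ) (i : Fin 3) :
    rootVec (rootPerm hn π g i) = redMat hn π g *ᵥ rootVec i :=
  rootVec_vecRoot _ (redMat_mulVec_rootVec_ne_zero hn π g i)

lemma det_redMat (g : Γℚ) : (redMat hn π g).det = 1 := by
  have h : IsUnit (redMat hn π g).det :=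
    (Matrix.isUnit_iff_isUnit_det _).1 (redGL hn (π g)).isUnit
  revert h
  generalize (redMat hn π g).det = d
  revert d
  decide

/-- Compatibility of the module structures. -/
lemma sumFun_mulVec (g : Γℚ) (v : V2) (i : Fin 3) :
    sumFun (redMat hn π g *ᵥ v) i = sumFun v ((rootPerm hn π g).symm i) := by
  obtain ⟨j, rfl⟩ := (rootPerm hn π g).surjective i
  rw [Equiv.symm_apply_apply, sumFun, sumFun, rootVec_rootPerm]
  exact pairing_mulVec _ (det_redMat hn π g) _ _

/-- **The cubic roots of a mod `2` representation with image containing `SL₂`.** -/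
theorem exists_cubicRoots (hπ : HasFiniteLevel π)
    (hSL : ∀ M : GL (Fin 2) (ZMod (2 ^ n)), M.1.det = 1 → ∃ g, π g = M) :
    ∃ T : CubicRoots, T.perm = rootPerm hn π ∧
      ∀ g v, sumFun (redMat hn π g *ᵥ v) = T.act g (sumFun v) := by
  classical
  have hperm : ∀ i, ∃ g, rootPerm hn π g 0 = i := by
    intro i
    have hS : ∃ g, rootPerm hn π g 0 = 1 := by
      obtain ⟨g, hg⟩ := hSL (mkSL !![0, -1; 1, 0] S_det) (by rw [coe_mkSL, S_det])
      refine ⟨g, ?_⟩
      show vecRoot (redMat hn π g *ᵥ rootVec 0) = 1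
      simp [redMat, coe_redGL, hg, rootVec, vecRoot, Matrix.mulVec, dotProduct, Fin.sum_univ_two]
    have hU : ∃ g, rootPerm hn π g 0 = 2 := by
      obtain ⟨g, hg⟩ := hSL (mkSL !![1, 0; 1, 1] (lower_det 1)) (by rw [coe_mkSL, lower_det])
      refine ⟨g, ?_⟩
      show vecRoot (redMat hn π g *ᵥ rootVec 0) = 2
      simp [redMat, coe_redGL, hg, rootVec, vecRoot, Matrix.mulVec, dotProduct, Fin.sum_univ_two]
    fin_cases i
    · exact ⟨1, by rw [map_one]; rfl⟩
    · exact hS
    · exact hU
  choose s hs using hperm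
  let H₀ : Subgroup Γℚ := (MulAction.stabilizer (Equiv.Perm (Fin 3)) (0 : Fin 3)).comap
    (rootPerm hn π)
  obtain ⟨L, hL, hLπ⟩ := hπ
  have hle : L.fixingSubgroup ≤ H₀ := fun g hg => by
    have h1 : π g = 1 := by
      have := hLπ 1 g fun x hx => hg ⟨x, hx⟩
      rwa [one_mul, map_one] at this
    show vecRoot (redMat hn π g *ᵥ rootVec 0) = 0
    rw [redMat, h1, map_one, Units.val_one, Matrix.one_mulVec, vecRoot_rootVec]
  have hopen : IsOpen (H₀ : Set Γℚ) :=
    Subgroup.isOpen_mono hle (IntermediateField.fixingSubgroup_isOpen L)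
  have hfix : (IntermediateField.fixedField H₀).fixingSubgroup = H₀ :=
    InfiniteGalois.fixingSubgroup_fixedField ⟨H₀, Subgroup.isClosed_of_isOpen H₀ hopen⟩
  have hFL : IntermediateField.fixedField H₀ ≤ L := by
    conv_rhs => rw [← InfiniteGalois.fixedField_fixingSubgroup L]
    exact IntermediateField.fixedField_antitone hle
  have : FiniteDimensional ℚ (IntermediateField.fixedField H₀) :=
    FiniteDimensional.of_injective (IntermediateField.inclusion hFL).toLinearMap
      (IntermediateField.inclusion hFL).injective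
  obtain ⟨α, hα⟩ := Field.exists_primitive_element ℚ (IntermediateField.fixedField H₀)
  have hmem : ∀ σ : Γℚ, σ (α : ℚ̄) = α ↔ σ ∈ H₀ := by
    refine fun σ => ⟨fun h => ?_, fun h => α.2 ⟨σ, h⟩⟩
    rw [← hfix, IntermediateField.mem_fixingSubgroup_iff]
    intro x hx
    have hx' : (⟨x, hx⟩ : IntermediateField.fixedField H₀) ∈ IntermediateField.adjoin ℚ {α} := by
      rw [hα]; exact IntermediateField.mem_top
    have key : ∀ y ∈ IntermediateField.adjoin ℚ {α}, σ (y : ℚ̄) = y := by
      intro y hy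
      induction hy using IntermediateField.adjoin_induction with
      | mem z hz => rw [Set.mem_singleton_iff.1 hz]; exact h
      | algebraMap r => exact σ.commutes r
      | add a b _ _ ha hb => push_cast; rw [map_add, ha, hb]
      | inv a _ ha => push_cast; rw [map_inv₀, ha]
      | mul a b _ _ ha hb => push_cast; rw [map_mul, ha, hb]
    exact key _ hx'
  have hroot : ∀ (σ : Γℚ) (i : Fin 3), σ (s i (α : ℚ̄)) = s (rootPerm hn π σ i) (α : ℚ̄) := by
    intro σ i
    have h : (s (rootPerm hn π σ i))⁻¹ * σ * s i ∈ H₀ := by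
      show rootPerm hn π _ 0 = 0
      rw [map_mul, map_mul, Equiv.Perm.mul_apply, Equiv.Perm.mul_apply, hs, map_inv]
      conv_lhs => arg 2; rw [← hs (rootPerm hn π σ i)]
      exact Equiv.symm_apply_apply _ _
    have h2 := congrArg (s (rootPerm hn π σ i)) ((hmem _).2 h)
    rw [AlgEquiv.mul_apply, AlgEquiv.mul_apply] at h2
    exact ((s (rootPerm hn π σ i)).apply_symm_apply _).symm.trans h2
  refine ⟨{ root := fun i => s i (α : ℚ̄)
            root_injective := fun i j h => ?_
            perm := rootPerm hn π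
            apply_root := hroot
            transitive := fun i => ⟨s i, hs i⟩ }, rfl, fun g v => funext fun i => sumFun_mulVec hn π g v i⟩
  have h1 : (s j)⁻¹ * s i ∈ H₀ := by
    rw [← hmem, AlgEquiv.mul_apply, show s i (α : ℚ̄) = s j (α : ℚ̄) from h]
    exact (s j).symm_apply_apply _
  have h2 : rootPerm hn π ((s j)⁻¹ * s i) 0 = 0 := h1
  rw [map_mul, Equiv.Perm.mul_apply, hs, map_inv] at h2
  have h3 := congrArg (rootPerm hn π (s j)) h2
  rw [hs] at h3
  exact ((rootPerm hn π (s j)).apply_symm_apply i).symm.trans h3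

lemma sumFun_eq_toSum : ∀ v, sumFun v = toSum v := by decide

/-- The cubic roots, in the form used by the killing of the Selmer group. -/
theorem exists_cubicRoots_toSum (hπ : HasFiniteLevel π)
    (hSL : ∀ M : GL (Fin 2) (ZMod (2 ^ n)), M.1.det = 1 → ∃ g, π g = M) :
    ∃ T : CubicRoots, T.perm = rootPerm hn π ∧
      ∀ g v, toSum (redMat hn π g *ᵥ v) = T.act g (toSum v) := by
  obtain ⟨T, hT, h⟩ := exists_cubicRoots hn π hπ hSL
  exact ⟨T, hT, fun g v => by rw [← sumFun_eq_toSum, h, sumFun_eq_toSum]⟩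

end Fermat.Agent.TwoAdic.Selmer

end
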