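import Fermat.Agent.TwoAdic.Contracts.Defs
import Fermat.Agent.TwoAdic.Selmer.OfRed
import Fermat.Agent.TwoAdic.Switch.Galois.Lines

/-!
# The abscissae of the points of order two as cubic roots

For a basis of the Tate module the three non-zero points of `V[2]` give cubic roots compatible
with the matrices of all levels; any other numbering of the same roots differs by a permutation.
-/

set_option autoImplicit false

noncomputable section

open Matrix WeierstrassCurve
open scoped WeierstrassCurve.Affine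

namespace Fermat.Agent.TwoAdic

local notation "Qb" => AlgebraicClosure ℚ
local notation "Γℚ" => (AlgebraicClosure ℚ ≃ₐ[ℚ] AlgebraicClosure ℚ)

variable {W : WeierstrassCurve ℤ} [(W.map (Int.castRingHom ℚ)).IsElliptic]

local notation "ρT" => GaloisRepAdic.ρ (EC.tateRep (W.map (Int.castRingHom ℚ)) 2)
local notation "EQ" => (W.map (Int.castRingHom ℚ))⁄Qb
set_option quotPrecheck false in
local notation "BT" => Module.Basis (Fin 2) ℤ_[2] (EC.tateRep (W.map (Int.castRingHom ℚ)) 2).V

/-- The point of order dividing two with given coordinates. -/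
def twoPoint (b : BT) (v : V2) : (EQ).Point :=
  (EC.tateProjOne (W.map (Int.castRingHom ℚ)) 2
    (((v 0).val : ℤ_[2]) • b 0 + ((v 1).val : ℤ_[2]) • b 1)).1

lemma two_nsmul_twoPoint (b : BT) (v : V2) : 2 • twoPoint b v = 0 := by
  rw [← natCast_zsmul]
  exact (EC.tateProjOne (W.map (Int.castRingHom ℚ)) 2 _).2

lemma twoPoint_repr (b : BT) (w : (EC.tateRep (W.map (Int.castRingHom ℚ)) 2).V) :
    twoPoint b (fun i => PadicInt.toZMod (b.repr w i)) =
      (EC.tateProjOne (W.map (Int.castRingHom ℚ)) 2 w).1 := by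
  rw [twoPoint]
  congr 1
  conv_rhs => rw [← b.sum_repr w, Fin.sum_univ_two, map_add, EC.tateProjOne_smul,
    EC.tateProjOne_smul]
  rw [map_add, EC.tateProjOne_smul, EC.tateProjOne_smul, map_natCast, map_natCast,
    ZMod.natCast_zmod_val, ZMod.natCast_zmod_val]

lemma smul_twoPoint (b : BT) (σ : Γℚ) (v : V2) :
    σ • twoPoint b v =
      twoPoint b ((LinearMap.toMatrix b b (ρT σ)).map PadicInt.toZMod *ᵥ v) := by
  set w := ((v 0).val : ℤ_[2]) • b 0 + ((v 1).val : ℤ_[2]) • b 1 with hw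
  have h1 : σ • twoPoint b v = (EC.tateProjOne (W.map (Int.castRingHom ℚ)) 2 (ρT σ w)).1 := by
    rw [EC.tateProjOne_ρ]; rfl
  have h2 : ∀ j, b.repr w j = ((v j).val : ℤ_[2]) := by
    intro j
    fin_cases j <;> simp [hw]
  rw [h1, ← twoPoint_repr]
  congr 1
  funext i
  rw [← LinearMap.toMatrix_mulVec_repr b b, Matrix.mulVec, dotProduct, map_sum, Matrix.mulVec,
    dotProduct]
  exact Finset.sum_congr rfl fun j _ => by
    rw [map_mul, Matrix.map_apply, h2, map_natCast, ZMod.natCast_zmod_val]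

lemma twoPoint_bijOn (b : BT) {P : (EQ).Point} (hP : 2 • P = 0) : ∃ v, twoPoint b v = P := by
  obtain ⟨w, hw⟩ := EC.tateProjOne_surjective (W.map (Int.castRingHom ℚ)) 2
    ⟨P, (Submodule.mem_torsionBy_iff _ _).2 (by rw [natCast_zsmul]; exact hP)⟩
  exact ⟨_, (twoPoint_repr b w).trans (congrArg Subtype.val hw)⟩

lemma twoPoint_injective (b : BT) : Function.Injective (twoPoint b) := by
  classical
  let f : V2 → Submodule.torsionBy ℤ (EQ).Point (2 : ℕ) := fun v =>
    EC.tateProjOne (W.map (Int.castRingHom ℚ)) 2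
      (((v 0).val : ℤ_[2]) • b 0 + ((v 1).val : ℤ_[2]) • b 1)
  have hsurj : Function.Surjective f := fun P => by
    obtain ⟨v, hv⟩ := twoPoint_bijOn b (P := P.1) (by rw [← natCast_zsmul]; exact P.2)
    exact ⟨v, Subtype.ext hv⟩
  have hcard : Nat.card (Submodule.torsionBy ℤ (EQ).Point (2 : ℕ)) = 4 := by
    rw [← Nat.card_congr (EC.torsionPowOneEquiv (W.map (Int.castRingHom ℚ)) 2).toEquiv,
      EC.natCard_torsion_prime_pow]
    rfl
  have hbij : Function.Bijective f := hsurj.bijective_of_nat_card_le (by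
    rw [hcard, Nat.card_fun, Nat.card_zmod, Nat.card_eq_fintype_card, Fintype.card_fin]; rfl)
  intro v w h
  exact hbij.1 (Subtype.ext h)

lemma twoPoint_zero (b : BT) : twoPoint b 0 = 0 := by
  simp [twoPoint]

lemma twoPoint_ne_zero (b : BT) {v : V2} (hv : v ≠ 0) : twoPoint b v ≠ 0 :=
  fun h => hv (twoPoint_injective b (h.trans (twoPoint_zero b).symm))

/-- The abscissa of a point, `0` at infinity. -/
def abscissa : (EQ).Point → Qb
  | .zero => 0
  | .some x _ _ => x

omit [(W.map (Int.castRingHom ℚ)).IsElliptic] in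
lemma abscissa_smul (σ : Γℚ) (P : (EQ).Point) : abscissa (σ • P) = σ (abscissa P) := by
  match P with
  | .zero => exact (map_zero σ).symm
  | .some x y h => rfl

omit [(W.map (Int.castRingHom ℚ)).IsElliptic] in
lemma eq_negY_of_two_nsmul {x y : Qb} {h : (EQ).toAffine.Nonsingular x y}
    (hP : 2 • (Affine.Point.some x y h : (EQ).Point) = 0) : y = (EQ).toAffine.negY x y := by
  rw [two_nsmul, add_eq_zero_iff_eq_neg] at hP
  injection hP

lemma abscissa_injOn {P Q : (EQ).Point} (hP : 2 • P = 0) (hP0 : P ≠ 0) (hQ : 2 • Q = 0)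
    (hQ0 : Q ≠ 0) (h : abscissa P = abscissa Q) : P = Q := by
  match P, Q, hP, hP0, hQ, hQ0, h with
  | .zero, _, _, h0, _, _, _ => exact absurd rfl h0
  | _, .zero, _, _, _, h0, _ => exact absurd rfl h0
  | .some x y hxy, .some x' y' hxy', hP, _, hQ, _, h =>
    obtain rfl : x = x' := h
    have e1 := eq_negY_of_two_nsmul hP
    have e2 := eq_negY_of_two_nsmul hQ
    rw [Affine.negY] at e1 e2
    obtain rfl : y = y' := by linear_combination (1 / 2 : Qb) * e1 - (1 / 2 : Qb) * e2
    rfl

lemma cubic_abscissa {P : (EQ).Point} (hP : 2 • P = 0) (hP0 : P ≠ 0) :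
    4 * abscissa P ^ 3 + (W.b₂ : Qb) * abscissa P ^ 2 + 2 * (W.b₄ : Qb) * abscissa P +
      (W.b₆ : Qb) = 0 := by
  match P, hP, hP0 with
  | .zero, _, h0 => exact absurd rfl h0
  | .some x y hxy, hP, _ =>
    have hneg := eq_negY_of_two_nsmul hP
    have heq := (Affine.equation_iff _ _).1 hxy.left
    have hb2 : ((EQ).b₂ : Qb) = (W.b₂ : Qb) := by rw [baseChange_qbar_eq, map_b₂]; rfl
    have hb4 : ((EQ).b₄ : Qb) = (W.b₄ : Qb) := by rw [baseChange_qbar_eq, map_b₄]; rfl
    have hb6 : ((EQ).b₆ : Qb) = (W.b₆ : Qb) := by rw [baseChange_qbar_eq, map_b₆]; rfl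
    show 4 * x ^ 3 + (W.b₂ : Qb) * x ^ 2 + 2 * (W.b₄ : Qb) * x + (W.b₆ : Qb) = 0
    rw [← hb2, ← hb4, ← hb6]
    simp only [WeierstrassCurve.b₂, WeierstrassCurve.b₄, WeierstrassCurve.b₆]
    rw [Affine.negY] at hneg
    linear_combination (-4 : Qb) * heq + (2 * y + (EQ).a₁ * x + (EQ).a₃) * hneg

lemma redMat_levelHom_eq (b : BT) {n : ℕ} (hn : n ≠ 0) (g : Γℚ) :
    redMat hn (levelHom b n) g = (LinearMap.toMatrix b b (ρT g)).map PadicInt.toZMod :=
  redMat_levelHom b hn g

/-- **The two-torsion roots** attached to a basis, compatible with every level. -/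
theorem exists_torsionRoots (b : BT)
    (hSL : ∀ M : GL (Fin 2) (ZMod (2 ^ 1)), M.1.det = 1 → ∃ g, levelHom b 1 g = M) :
    ∃ T : Selmer.CubicRoots, IsTwoTorsionRoots W T ∧
      ∀ (n : ℕ) (hn : n ≠ 0) (g : Γℚ) (v : V2),
        Selmer.toSum (redMat hn (levelHom b n) g *ᵥ v) = T.act g (Selmer.toSum v) := by
  obtain ⟨L, hL, hfin⟩ := levelHom_finite_level b 1
  obtain ⟨T', hT', -⟩ := Selmer.exists_cubicRoots one_ne_zero (levelHom b 1)
    ⟨L, hL, fun g s hs => by rw [map_mul, hfin s hs, mul_one]⟩ hSL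
  let r : Fin 3 → Qb := fun i => abscissa (twoPoint b (Selmer.rootVec i))
  refine ⟨{ root := r
            root_injective := fun i j h => ?_
            perm := Selmer.rootPerm one_ne_zero (levelHom b 1)
            apply_root := fun σ i => ?_
            transitive := fun i => hT' ▸ T'.transitive i }, fun i => ?_, fun n hn g v => ?_⟩
  · have h' := twoPoint_injective b (abscissa_injOn (two_nsmul_twoPoint b _)
      (twoPoint_ne_zero b (Selmer.rootVec_ne_zero i)) (two_nsmul_twoPoint b _)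
      (twoPoint_ne_zero b (Selmer.rootVec_ne_zero j)) h)
    rw [← Selmer.vecRoot_rootVec i, h', Selmer.vecRoot_rootVec]
  · show σ (abscissa _) = abscissa _
    rw [← abscissa_smul, smul_twoPoint, ← redMat_levelHom_eq b one_ne_zero,
      Selmer.rootVec_rootPerm]
  · exact cubic_abscissa (two_nsmul_twoPoint b _)
      (twoPoint_ne_zero b (Selmer.rootVec_ne_zero i))
  · rw [redMat_levelHom_eq b hn, ← redMat_levelHom_eq b one_ne_zero, ← Selmer.sumFun_eq_toSum,
      ← Selmer.sumFun_eq_toSum]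
    exact funext fun i => Selmer.sumFun_mulVec one_ne_zero (levelHom b 1) g v i

/-- Two numberings of the abscissae of the points of order two differ by a permutation. -/
theorem exists_relabel (b : BT) (hΔ : W.Δ ≠ 0) {T T₀ : Selmer.CubicRoots}
    (hT : IsTwoTorsionRoots W T) (hT₀ : IsTwoTorsionRoots W T₀) :
    ∃ e : Equiv.Perm (Fin 3), (∀ i, T.root i = T₀.root (e i)) ∧
      ∀ (g : Γℚ) (i : Fin 3), e (T.perm g i) = T₀.perm g (e i) := by
  classical
  have hmem : ∀ (U : Selmer.CubicRoots), IsTwoTorsionRoots W U → ∀ i, ∃ k : Fin 3,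
      U.root i = abscissa (twoPoint b (Selmer.rootVec k)) := by
    intro U hU i
    obtain ⟨y, h, h2⟩ := exists_two_nsmul_eq_zero_of_root hΔ (hU i)
    obtain ⟨v, hv⟩ := twoPoint_bijOn b h2
    have hv0 : v ≠ 0 := by
      rintro rfl
      rw [twoPoint_zero] at hv
      exact Affine.Point.some_ne_zero h hv.symm
    exact ⟨Selmer.vecRoot v, by rw [Selmer.rootVec_vecRoot v hv0, hv]; rfl⟩
  choose f hf using hmem T hT
  choose f₀ hf₀ using hmem T₀ hT₀
  have hf₀i : Function.Injective f₀ := fun i j h => T₀.root_injective (by rw [hf₀, hf₀, h])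
  have hfi : Function.Injective f := fun i j h => T.root_injective (by rw [hf, hf, h])
  let e₀ : Equiv.Perm (Fin 3) := Equiv.ofBijective f₀ (Finite.injective_iff_bijective.1 hf₀i)
  let e₁ : Equiv.Perm (Fin 3) := Equiv.ofBijective f (Finite.injective_iff_bijective.1 hfi)
  have he : ∀ i, T.root i = T₀.root ((e₁.trans e₀.symm) i) := fun i => by
    rw [hf, hf₀]
    exact congrArg (fun k => abscissa (twoPoint b (Selmer.rootVec k)))
      (e₀.apply_symm_apply (f i)).symm
  refine ⟨e₁.trans e₀.symm, he, fun g i => T₀.root_injective ?_⟩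
  rw [← he, ← T.apply_root, he, T₀.apply_root]

end Fermat.Agent.TwoAdic
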