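import Fermat.Agent.TwoAdic.Contracts.Props
import Fermat.Agent.TwoAdic.Selmer.TorsionRoots
import Fermat.Agent.TwoAdic.Selmer.ExtraPrime
import Fermat.Agent.TwoAdic.Switch.Galois.Lines

/-!
# Auxiliary primes killing the Selmer group of `V[2]`

For a tres curve there is a bound `B` such that for every level `2 ^ n` at most `B` primes, with
Frobenius conjugate to complex conjugation on `V[2 ^ n]`, leave only coboundaries.
-/

set_option autoImplicit false

noncomputable section

open Matrix WeierstrassCurve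
open scoped WeierstrassCurve.Affine

namespace Fermat.Agent.TwoAdic

open Selmer Fermat.Agent.ClassField.Idele

local notation "Qb" => AlgebraicClosure ℚ
local notation "Γℚ" => (AlgebraicClosure ℚ ≃ₐ[ℚ] AlgebraicClosure ℚ)

variable {W : WeierstrassCurve ℤ} [(W.map (Int.castRingHom ℚ)).IsElliptic]

local notation "ρT" => GaloisRepAdic.ρ (EC.tateRep (W.map (Int.castRingHom ℚ)) 2)
set_option quotPrecheck false in
local notation "BT" => Module.Basis (Fin 2) ℤ_[2] (EC.tateRep (W.map (Int.castRingHom ℚ)) 2).V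

lemma vecRoot_fixed : ∀ (s : Equiv.Perm (Fin 3)) (z : V2), z ≠ 0 →
    (∀ i, sumFun z (s.symm i) = sumFun z i) → s (vecRoot z) = vecRoot z := by decide

lemma perm_fix_of_mulVec {T : CubicRoots} {b : BT}
    (hcompat : ∀ (n : ℕ) (hn : n ≠ 0) (g : Γℚ) (v : V2),
      toSum (redMat hn (levelHom b n) g *ᵥ v) = T.act g (toSum v))
    {g : Γℚ} {z : V2} (hz : z ≠ 0) (hfix : redMat one_ne_zero (levelHom b 1) g *ᵥ z = z) :
    T.perm g (vecRoot z) = vecRoot z := by
  refine vecRoot_fixed _ z hz fun i => ?_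
  have h := congrFun (hcompat 1 one_ne_zero g z) i
  rw [hfix] at h
  rw [sumFun_eq_toSum]
  exact h.symm

/-- At a bad prime the decomposition group fixes a root and inertia moves one. -/
theorem exists_bad_root {T : CubicRoots} {b : BT}
    (hcompat : ∀ (n : ℕ) (hn : n ≠ 0) (g : Γℚ) (v : V2),
      toSum (redMat hn (levelHom b n) g *ᵥ v) = T.act g (toSum v))
    (hΔ : W.Δ ≠ 0) (v : Nat.Primes) (hbad : ((v : ℕ) : ℤ) ∣ W.Δ) (hc4 : ¬ ((v : ℕ) : ℤ) ∣ W.c₄)
    (hv : Odd (padicValInt (v : ℕ) W.Δ)) :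
    (∃ r, ∀ τ : LocalGal v, T.perm (toGlobal v τ) r = r) ∧
      ∃ τ : LocalGal v, T.perm (toGlobal v τ) ≠ 1 := by
  have hA := liesOverPrime_padicPlace v
  obtain ⟨F, -, bv, u, -, -, -, -, -, hres⟩ := exists_frobenius_line_bad v.2 hΔ hbad hc4 hv _ hA
  obtain ⟨γ, hγ⟩ := exists_conj_levelHom b bv 1
  set B := (redGL one_ne_zero γ).1
  set B' := (redGL one_ne_zero γ⁻¹).1
  have hBB' : B * B' = 1 := by
    rw [← Units.val_mul, ← map_mul, mul_inv_cancel, _root_.map_one, Units.val_one]
  have hB'B : B' * B = 1 := by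
    rw [← Units.val_mul, ← map_mul, inv_mul_cancel, _root_.map_one, Units.val_one]
  have hz : B' *ᵥ ![1, 0] ≠ 0 := by
    intro h
    have h2 := congrArg (fun w => B *ᵥ w) h
    simp only [Matrix.mulVec_mulVec, hBB', Matrix.one_mulVec, Matrix.mulVec_zero] at h2
    exact one_ne_zero (congrFun h2 0)
  refine ⟨⟨vecRoot (B' *ᵥ ![1, 0]), fun τ => perm_fix_of_mulVec hcompat hz ?_⟩, ?_⟩
  · have hτ : toGlobal v τ ∈ (padicPlace (v : ℕ)).decompositionSubgroup ℚ :=
      localGaloisToGlobal_mem_decompositionSubgroup (v : ℕ) τ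
    obtain ⟨t, ht⟩ := hres _ hτ
    have h1 : redMat one_ne_zero (levelHom bv 1) (toGlobal v τ) =
        B * redMat one_ne_zero (levelHom b 1) (toGlobal v τ) * B' := by
      rw [redMat, hγ, map_mul, map_mul, Units.val_mul, Units.val_mul]; rfl
    rw [redMat_levelHom_eq, ht] at h1
    have h2 := congrArg (fun M => B' * M * B) h1
    simp only [mul_assoc, hB'B, mul_one] at h2
    rw [← mul_assoc B' B, hB'B, one_mul] at h2
    rw [← h2, ← mul_assoc, Matrix.mulVec_mulVec, mul_assoc _ B, hBB', mul_one,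
      ← Matrix.mulVec_mulVec]
    congr 1
    funext i
    fin_cases i <;> simp [Matrix.mulVec, dotProduct, Fin.sum_univ_two]
  · obtain ⟨σ, hσ, P, hP, hne⟩ := exists_two_torsion_inertia_ne hΔ v.2 hA hv
    obtain ⟨τ, -, hτ⟩ := exists_localInertia_eq v hσ
    refine ⟨τ, fun h => hne (smul_eq_self_of_toMatrix_map_eq_one (b := b) ?_ P hP)⟩
    rw [← redMat_levelHom_eq b one_ne_zero, redMat_eq_one_iff (hcompat 1 one_ne_zero), ← hτ, h]

/-- At a good odd prime inertia fixes the roots. -/
theorem perm_inertia_good {T : CubicRoots} {b : BT}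
    (hcompat : ∀ (n : ℕ) (hn : n ≠ 0) (g : Γℚ) (v : V2),
      toSum (redMat hn (levelHom b n) g *ᵥ v) = T.act g (toSum v))
    (hΔ : W.Δ ≠ 0) (v : Nat.Primes) (hgood : W.IsGoodPrimeFor (v : ℕ)) (h2 : (v : ℕ) ≠ 2) :
    ∀ τ ∈ localInertia v, T.perm (toGlobal v τ) = 1 := fun τ hτ => by
  have h := EC.tateRep_isUnramifiedAt (hΔ := hΔ) (p := 2) (W := W) v.2 hgood h2 _
    (liesOverPrime_padicPlace v) _ (toGlobal_mem_inertia v hτ)
  rw [← redMat_eq_one_iff (hcompat 1 one_ne_zero), redMat_levelHom_eq, h]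
  ext i j
  rw [Matrix.map_apply, LinearMap.toMatrix_one, Matrix.one_apply, Matrix.one_apply]
  split_ifs <;> simp

/-- At a Ramakrishna prime some local element moves a root. -/
theorem exists_perm_ne_one {T : CubicRoots} {n : ℕ} {hn : n ≠ 0}
    {ρ : Γℚ →* GL (Fin 2) (ZMod (2 ^ n))}
    (hcompat : ∀ g v, toSum (redMat hn ρ g *ᵥ v) = T.act g (toSum v))
    {c : Γℚ} (hc : ρ c * ρ c = 1) (hc1 : redMat hn ρ c ≠ 1) {v : Nat.Primes}
    (hv : IsRamakrishna ρ c (v : ℕ)) : ∃ τ : LocalGal v, T.perm (toGlobal v τ) ≠ 1 := by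
  obtain ⟨σ, hσ⟩ :=
    Galois.exists_isFrobeniusAt (padicPlace (v : ℕ)) v.2 (liesOverPrime_padicPlace v)
  obtain ⟨a, ha⟩ := (hv.2 _ (liesOverPrime_padicPlace v)).2 σ hσ
  obtain ⟨τ, hτ⟩ := exists_toGlobal_eq v (Density.isFrobeniusAt_iff.1 hσ).1
  refine ⟨τ, fun h => (involution_conj hc hc1 ha).2 ?_⟩
  rw [redMat_eq_one_iff hcompat, ← hτ, h]

/-- The level `2 ^ n` matrices determine the action on `V[2 ^ n]`. -/
theorem galoisRepModuleEnd_eq_of_levelHom_eq (b : BT) {n : ℕ} {g h : Γℚ}
    (e : levelHom b n g = levelHom b n h) :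
    Affine.Point.galoisRepModuleEnd (K := Qb) ℚ (W.map (Int.castRingHom ℚ)) (2 ^ n) g =
      Affine.Point.galoisRepModuleEnd (K := Qb) ℚ (W.map (Int.castRingHom ℚ)) (2 ^ n) h := by
  obtain ⟨bn, hbn⟩ := EC.exists_levelBasis (W.map (Int.castRingHom ℚ)) 2 b n
  refine (LinearMap.toMatrix bn bn).injective ?_
  have hg := EC.toMatrix_galoisRepModuleEnd (W.map (Int.castRingHom ℚ)) 2 b bn hbn g
  have hh := EC.toMatrix_galoisRepModuleEnd (W.map (Int.castRingHom ℚ)) 2 b bn hbn h
  exact hg.trans ((congrArg Units.val e).trans hh.symm)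

/-- **P5: auxiliary primes exist.** -/
theorem auxPrimesExist : AuxPrimesExist := by
  intro V hV
  classical
  have hΔ := hV.delta_ne_zero
  have := EC.isElliptic_map_rat hΔ
  let b := EC.tateRepBasis (V.map (Int.castRingHom ℚ)) 2
  obtain ⟨q₀, hq₀, h5, hq₀bad⟩ := hV.exists_five_le
  have hSL : ∀ (n : ℕ) (M : GL (Fin 2) (ZMod (2 ^ n))), M.1.det = 1 → ∃ g, levelHom b n g = M :=
    fun n M hM => exists_levelHom_eq_of_det_eq_one hΔ hq₀ (by omega) hq₀bad
      (hV.semistable q₀ hq₀ hq₀bad) (hV.odd_val q₀ hq₀ hq₀bad) hV.no_two_torsion b n M hM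
  obtain ⟨T₀, hT₀, hcompat⟩ := exists_torsionRoots b (hSL 1)
  have hmemBad : ∀ v : Nat.Primes, v ∈ primesIn (badPrimes V) ↔ ((v : ℕ) : ℤ) ∣ V.Δ := fun v => by
    rw [mem_primesIn, badPrimes, Nat.mem_primeFactors, Int.natCast_dvd]
    exact ⟨fun h => h.2.1, fun h => ⟨v.2, h, Int.natAbs_ne_zero.2 hΔ⟩⟩
  have hroot : ∀ v : Nat.Primes, ∃ r : Fin 3,
      v ∈ primesIn (badPrimes V) → ∀ τ : LocalGal v, T₀.perm (toGlobal v τ) r = r := fun v => by
    by_cases h : v ∈ primesIn (badPrimes V)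
    · have h' := (hmemBad v).1 h
      obtain ⟨r, hr⟩ := (exists_bad_root hcompat hΔ v h' (hV.semistable _ v.2 h')
        (hV.odd_val _ v.2 h')).1
      exact ⟨r, fun _ => hr⟩
    · exact ⟨0, fun h' => absurd h' h⟩
  choose root hroot using hroot
  let D : SelData T₀ :=
    { lineSet := primesIn (badPrimes V)
      peuSet := ∅
      root := root
      root_fixed := fun v hv => hroot v (by simpa using hv)
      peu_inertia := fun v hv => absurd hv (Finset.notMem_empty v)
      two_mem := fun v hv => Finset.mem_union_left _ ((hmemBad v).2 (by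
        rw [hv]; exact_mod_cast hV.two_dvd)) }
  refine ⟨D.bound + 2, fun n hn S₀ => ?_⟩
  have hn0 : n ≠ 0 := by omega
  set ρ := levelHom b n
  have hρ : HasFiniteLevel ρ := by
    obtain ⟨L, hL, hfin⟩ := levelHom_finite_level b n
    exact ⟨L, hL, fun g s hs => by rw [map_mul, hfin s hs, mul_one]⟩
  have hc : ρ complexConjugation * ρ complexConjugation = 1 :=
    levelHom_complexConjugation_mul_self b n
  have hc1 : redMat hn0 ρ complexConjugation ≠ 1 :=
    redMat_levelHom_complexConjugation_ne_one hV.delta_neg b hn0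
  set S := S₀ ∪ badPrimes V ∪ {2}
  obtain ⟨q₁, hq₁S, hram₁⟩ := exists_ramakrishna (levelHom_finite_level b n) hc hc1 S
  let w : Nat.Primes := ⟨q₁, hram₁.1⟩
  obtain ⟨r₁, hr₁⟩ := exists_root_fixed (hcompat n hn0) hc hc1 (v := w) hram₁
  have hw : w ∉ D.lineSet ∪ D.peuSet := fun h => by
    simp only [D, Finset.union_empty, mem_primesIn] at h
    exact hq₁S (Finset.mem_union_left _ (Finset.mem_union_right _ h))
  have hinertia : ∀ (v : Nat.Primes), IsRamakrishna ρ complexConjugation (v : ℕ) →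
      ∀ τ ∈ localInertia v, T₀.perm (toGlobal v τ) = 1 := fun v hv τ hτ =>
    (redMat_eq_one_iff (hcompat n hn0) _).1 (by
      rw [redMat, (hv.2 _ (liesOverPrime_padicPlace v)).1 _ (toGlobal_mem_inertia v hτ),
        _root_.map_one, Units.val_one])
  set D₁ := D.insertLine w r₁ hr₁
  have hB : D₁.bound ≤ D.bound + 1 := D.bound_insertLine_le hr₁ hw (hinertia w hram₁)
  obtain ⟨Q, hQc, hQ, hkill⟩ := exists_killing_primes D₁ hρ (hSL n) (hcompat n hn0) hc hc1
    (by
      obtain ⟨b₀, -, hT⟩ := exists_inertia_eq_transvection hq₀ (by omega) hΔ hq₀bad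
        (hV.semistable q₀ hq₀ hq₀bad) (hV.odd_val q₀ hq₀ hq₀bad) _
        (liesOverPrime_padicPlace ⟨q₀, hq₀⟩)
      obtain ⟨σ, hσ, hσT⟩ := hT n
      obtain ⟨τ, -, hτ⟩ := exists_localInertia_eq ⟨q₀, hq₀⟩ hσ
      obtain ⟨γ, hγ⟩ := exists_conj_levelHom b₀ b n
      refine ⟨⟨q₀, hq₀⟩, Finset.mem_insert_of_mem ((hmemBad _).2 hq₀bad), τ, γ, ?_⟩
      rw [hτ]
      show (levelHom b n σ).1 = _
      rw [hγ, hσT, Units.val_mul, Units.val_mul, coe_mkSL])
    S
  have hQS : ∀ q ∈ insert q₁ (Q.image fun v : Nat.Primes => (v : ℕ)),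
      q ∉ S ∧ IsRamakrishna ρ complexConjugation q := by
    intro q hq
    rcases Finset.mem_insert.1 hq with rfl | hq
    · exact ⟨hq₁S, hram₁⟩
    · obtain ⟨v, hv, rfl⟩ := Finset.mem_image.1 hq
      exact ⟨(hQ v hv).1, (hQ v hv).2.2.2⟩
  refine ⟨insert q₁ (Q.image fun v : Nat.Primes => (v : ℕ)),
    ⟨⟨q₁, Finset.mem_insert_self _ _⟩, fun q hq => ?_⟩, fun q hq => ?_, ?_, ?_⟩
  · obtain ⟨hqS, hram⟩ := hQS q hq
    exact
      { prime := hram.1
        odd := fun h => hqS (by simp [S, h])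
        good := fun h => hqS (Finset.mem_union_left _ (Finset.mem_union_right _ (by
          rw [badPrimes, Nat.mem_primeFactors]
          exact ⟨hram.1, Int.natCast_dvd.1 h, Int.natAbs_ne_zero.2 hΔ⟩)))
        frob := fun A hA σ hσ => by
          obtain ⟨a, ha⟩ := (hram.2 A hA).2 σ hσ
          exact ⟨a, galoisRepModuleEnd_eq_of_levelHom_eq b ha⟩ }
  · exact fun h => (hQS q hq).1 (Finset.mem_union_left _ (Finset.mem_union_left _ h))
  · refine (Finset.card_insert_le _ _).trans ?_
    have := Finset.card_image_le (s := Q) (f := fun v : Nat.Primes => (v : ℕ))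
    omega
  -- the Selmer group is trivial
  intro T hT x hx hline hunr
  obtain ⟨e, -, he⟩ := exists_relabel b hΔ hT hT₀
  have hsymm : ∀ g i, e.symm ((T₀.perm g).symm i) = (T.perm g).symm (e.symm i) := by
    intro g i
    rw [Equiv.eq_symm_apply, ← e.apply_eq_iff_eq, he, Equiv.apply_symm_apply,
      Equiv.apply_symm_apply, Equiv.apply_symm_apply]
  set y : Γℚ → Fin 3 → ZMod 2 := fun g i => x g (e.symm i)
  have hy : T₀.IsCocycle y :=
    { sum_eq_zero := fun g => (Equiv.sum_comp e.symm (x g)).trans (hx.sum_eq_zero g)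
      map_mul := fun g h => funext fun i => by
        show x (g * h) (e.symm i) = x g (e.symm i) + x h (e.symm ((T₀.perm g).symm i))
        rw [hsymm, hx.map_mul]; rfl
      cont := by
        obtain ⟨L, hL, hxL⟩ := hx.cont
        exact ⟨L, hL, fun σ hσ => funext fun i => by simp [y, hxL σ hσ]⟩ }
  have hyline : ∀ v : Nat.Primes, (v : ℕ) ∈ signSet V (insert q₁ (Q.image fun u : Nat.Primes => (u : ℕ))) →
      (∃ τ : LocalGal v, T₀.perm (toGlobal v τ) ≠ 1) →
      ∀ r, (∀ τ : LocalGal v, T₀.perm (toGlobal v τ) r = r) →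
        ∀ τ : LocalGal v, y (toGlobal v τ) r = 0 := by
    intro v hv hmove r hr τ
    obtain ⟨r', hr', hx'⟩ := hline v hv
    obtain ⟨τ₀, hτ₀⟩ := hmove
    obtain rfl : r = e r' :=
      fixed_root_unique _ r (e r') hτ₀ (hr τ₀) (by rw [← he, hr' τ₀])
    show x _ (e.symm (e r')) = 0
    rw [Equiv.symm_apply_apply]
    exact hx' τ
  have hmoveAux : ∀ v : Nat.Primes, (v : ℕ) ∈ insert q₁ (Q.image fun u : Nat.Primes => (u : ℕ)) →
      ∃ τ : LocalGal v, T₀.perm (toGlobal v τ) ≠ 1 :=
    fun v hv => exists_perm_ne_one (hcompat n hn0) hc hc1 (hQS _ hv).2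
  have hmem : y ∈ D₁.sel Q :=
    { cocycle := hy
      infinity := fun i hi => by
        have hy1 : y 1 = 0 := by
          have h := hy.map_mul 1 1
          rw [one_mul, act_one] at h
          exact left_eq_add.mp h
        have h := hy.map_mul complexConjugation complexConjugation
        rw [complexConjugation_mul_self, hy1, eq_comm, add_eq_zero_iff_eq_neg,
          show ∀ u : Fin 3 → ZMod 2, -u = u from fun u => funext fun j =>
            ZMod.neg_eq_self_mod_two _] at h
        refine (act_fixed_iff (fun hp => hc1 ((redMat_eq_one_iff (hcompat n hn0) _).2 hp)) hi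
          (hy.sum_eq_zero _)).1 h.symm
      line := fun v hv => by
        refine ⟨D₁.root_fixed v (Finset.mem_union_left _ hv),
          hyline v ?_ ?_ _ (D₁.root_fixed v (Finset.mem_union_left _ hv))⟩
        · rcases Finset.mem_insert.1 hv with h | h
          · subst h; exact Finset.mem_union_right _ (Finset.mem_insert_self _ _)
          · exact Finset.mem_union_left _ (mem_primesIn.1 h)
        · rcases Finset.mem_insert.1 hv with h | h
          · subst h; exact hmoveAux w (Finset.mem_insert_self _ _)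
          · have h' := (hmemBad v).1 h
            exact (exists_bad_root hcompat hΔ v h' (hV.semistable _ v.2 h')
              (hV.odd_val _ v.2 h')).2
      peu := fun v hv => absurd hv (Finset.notMem_empty v)
      aux := fun v hv r hr =>
        have hv' : (v : ℕ) ∈ insert q₁ (Q.image fun u : Nat.Primes => (u : ℕ)) :=
          Finset.mem_insert_of_mem (Finset.mem_image_of_mem (fun u : Nat.Primes => (u : ℕ)) hv)
        hyline v (Finset.mem_union_right _ hv') (hmoveAux v hv') r hr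
      unramified := fun v hl _ hvQ => by
        have hlbad : v ∉ primesIn (badPrimes V) := fun h => hl (Finset.mem_insert_of_mem h)
        have hns : (v : ℕ) ∉ signSet V (insert q₁ (Q.image fun u : Nat.Primes => (u : ℕ))) := by
          intro h
          rcases Finset.mem_union.1 h with h | h
          · exact hlbad (mem_primesIn.2 h)
          rcases Finset.mem_insert.1 h with h | h
          · exact hl (Finset.mem_insert.2 (Or.inl (Subtype.ext h)))
          · obtain ⟨u, hu, hu'⟩ := Finset.mem_image.1 h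
            exact hvQ (Subtype.ext hu' ▸ hu)
        have hgood : V.IsGoodPrimeFor (v : ℕ) := fun h => hlbad ((hmemBad v).2 h)
        have h2 : (v : ℕ) ≠ 2 := fun h => hlbad ((hmemBad v).2 (by
          rw [h]; exact_mod_cast hV.two_dvd))
        exact eq_zero_of_unramifiedAt hy (perm_inertia_good hcompat hΔ v hgood h2)
          fun τ hτ => funext fun i => congrFun (hunr v hns τ hτ) (e.symm i) }
  obtain ⟨z, hz, hyz⟩ := hkill y hmem
  refine ⟨fun i => z (e i), (Equiv.sum_comp e z).trans hz, fun σ => funext fun i => ?_⟩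
  have h := congrFun (hyz σ) (e i)
  show x σ i = z (e ((T.perm σ).symm i)) - z (e i)
  rw [show y σ (e i) = x σ i by simp [y]] at h
  rw [h, Pi.sub_apply]
  show z ((T₀.perm σ).symm (e i)) - _ = _
  congr 2
  rw [Equiv.symm_apply_eq, ← he, Equiv.apply_symm_apply]

end Fermat.Agent.TwoAdic

end
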